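import Mathlib

/-!
# S33 / Depth / Binom  (leaf D4, pure Mathlib)

`(y + z)^p = y^p + z^p + p z y^(p-1) + p z² r` with `r` in any subring containing `y`, `z`.

PROOF. `add_pow` : `(y + z)^p = ∑_{i ≤ p} y^i z^(p-i) C(p,i)`.  Take `r := ∑_{i ∈ range (p-1), 1 ≤ i ... }` : precisely
`r = ∑_{j ∈ Finset.Ico 2 p} ((p.choose j / p : ℕ) : R) * y^(p-j) * z^(j-2)`, using `p ∣ p.choose j` for `0 < j < p` (`Nat.Prime.dvd_choose_self`).
Split off the terms `j = 0, 1, p` (for `p = 2` the sum is empty).  An alternative: induction-free proof via `Polynomial`/`MvPolynomial` is NOT needed.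
-/

set_option autoImplicit false

namespace Fermat.Agent.S33.Depth

/-- **(D4)** -/
theorem exists_binom_prime {R : Type*} [CommRing R] (O : Subring R) {p : ℕ} (hp : p.Prime) {y z : R}
    (hy : y ∈ O) (hz : z ∈ O) :
    ∃ r ∈ O, (y + z) ^ p = y ^ p + z ^ p + (p : R) * z * y ^ (p - 1) + (p : R) * z ^ 2 * r := by
  obtain ⟨k, rfl⟩ : ∃ k, p = k + 2 := ⟨p - 2, by have := hp.two_le; omega⟩
  refine ⟨∑ m ∈ Finset.range k,
    z ^ m * y ^ (k - m) * (((k + 2).choose (m + 2) / (k + 2) : ℕ) : R), ?_, ?_⟩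
  · exact sum_mem fun m _ => mul_mem (mul_mem (pow_mem hz _) (pow_mem hy _)) (natCast_mem _ _)
  · rw [add_comm y z, add_pow, Finset.sum_range_succ, Finset.sum_range_succ',
      Finset.sum_range_succ', Finset.mul_sum]
    have h : ∀ m ∈ Finset.range k,
        z ^ (m + 1 + 1) * y ^ (k + 2 - (m + 1 + 1)) * (((k + 2).choose (m + 1 + 1) : ℕ) : R) =
          ((k + 2 : ℕ) : R) * z ^ 2 *
            (z ^ m * y ^ (k - m) * (((k + 2).choose (m + 2) / (k + 2) : ℕ) : R)) := by
      intro m hm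
      have hm' : m < k := Finset.mem_range.1 hm
      have hd : (k + 2) ∣ (k + 2).choose (m + 2) :=
        hp.dvd_choose_self (by omega) (by omega)
      have h1 : (((k + 2).choose (m + 1 + 1) : ℕ) : R) =
          ((k + 2 : ℕ) : R) * (((k + 2).choose (m + 2) / (k + 2) : ℕ) : R) := by
        rw [← Nat.cast_mul, Nat.mul_div_cancel' hd]
      have h2 : k + 2 - (m + 1 + 1) = k - m := by omega
      rw [h1, h2]
      ring
    rw [Finset.sum_congr rfl h]
    have h3 : k + 2 - (0 + 1) = k + 2 - 1 := by omega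
    simp only [h3, Nat.choose_self, Nat.choose_zero_right, Nat.choose_one_right, Nat.sub_self,
      Nat.sub_zero, pow_zero, zero_add, pow_one, Nat.cast_one, mul_one, one_mul]
    ring

end Fermat.Agent.S33.Depth
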