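import Fermat.Agent.S33.Depth.Defs

/-!
# S33 / Depth / Sum  (leaf D3') : integral decomposition in a sum of two subspaces

If `redSub (L₁ ⊔ L₂) ≤ redSub L₁ ⊔ redSub L₂` then `(L₁ ⊔ L₂) ∩ O = (L₁ ∩ O) + (L₂ ∩ O)`.

PROOF.  `Sb := (redSub L₁ : Set _) ∪ (redSub L₂ : Set _)` spans `redSub L₁ ⊔ redSub L₂` (`Submodule.span_union`, `Submodule.span_eq`).
`exists_linearIndependent k Sb` gives `b ⊆ Sb`, linearly independent, with `span b = span Sb`; `b` is finite
(`LinearIndependent.setFinite` needs finite dimensionality: all of `b` lies in `redSub (L₁ ⊔ L₂)` (`T.redSub_mono le_sup_left/right`), which is finite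
dimensional (`T.finite_redSub`); restrict the family to this submodule with `LinearIndependent.of_comp`/`linearIndependent_subtype` as convenient).
Every element `z` of `b` has a lift `l z` with (`l z ∈ L₁` or `l z ∈ L₂`), `l z ∈ T.O`, `T.red (l z) = z` (definition of `redSub`; `Classical.choose`).
`MultiRed.IsCartesian.exists_coeff hC (L₁ ⊔ L₂)` with `κ = b` (a `Fintype` by finiteness) : `y = ∑ z, c z • l z`, `c z ∈ A`.
Split the sum according to `l z ∈ L₁` or not (`Finset.sum_filter_add_sum_filter_not`); each part is integral (`T.smul_mem`, `Subring.sum_mem`) and lies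
in `L₁`, resp. `L₂` (`Submodule.sum_mem`, `Submodule.smul_mem`).
-/

set_option autoImplicit false

namespace Fermat.Agent.S33.Depth

open AlgebraicCurve Fermat.Agent.Lib.RR Fermat.Agent.GAL.RED Fermat.Agent.DR.Abs

variable {K F k : Type*} [Field K] [Field F] [Algebra K F] [Field k] {ι : Type*}
  {Fb : ι → Type*} [∀ i, Field (Fb i)] [∀ i, Algebra k (Fb i)]

/-- **(D3')** -/
theorem exists_add_of_redSub_sup {T : MultiRed K F k Fb} (hC : T.IsCartesian) (L₁ L₂ : Submodule K F)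
    [Module.Finite K L₁] [Module.Finite K L₂]
    (h : T.redSub (L₁ ⊔ L₂) ≤ T.redSub L₁ ⊔ T.redSub L₂) {y : F} (hy : y ∈ L₁ ⊔ L₂) (hyO : y ∈ T.O) :
    ∃ y₁ ∈ L₁, ∃ y₂ ∈ L₂, y₁ ∈ T.O ∧ y₂ ∈ T.O ∧ y = y₁ + y₂ := by
  classical
  have hne : Nonempty ι := hC.nonempty
  set Sb : Set (∀ i, Fb i) := (T.redSub L₁ : Set (∀ i, Fb i)) ∪ (T.redSub L₂ : Set (∀ i, Fb i))
    with hSb
  have hspanSb : Submodule.span k Sb = T.redSub L₁ ⊔ T.redSub L₂ := by
    rw [hSb, Submodule.span_union, Submodule.span_eq, Submodule.span_eq]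
  obtain ⟨b, hbS, hbspan, hbli⟩ := exists_linearIndependent k Sb
  have hfinR : Module.Finite k (T.redSub (L₁ ⊔ L₂)) := T.finite_redSub _
  have hbR : ∀ z : b, (z : ∀ i, Fb i) ∈ T.redSub (L₁ ⊔ L₂) := by
    intro z
    rcases hbS z.2 with hz | hz
    · exact T.redSub_mono le_sup_left hz
    · exact T.redSub_mono le_sup_right hz
  have hli' : LinearIndependent k (fun z : b => (⟨z, hbR z⟩ : T.redSub (L₁ ⊔ L₂))) :=
    LinearIndependent.of_comp (T.redSub (L₁ ⊔ L₂)).subtype hbli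
  have hbfin : Finite b := hli'.finite
  have : Fintype b := Fintype.ofFinite b
  have hlift : ∀ z : b, ∃ l : F, (l ∈ L₁ ∨ l ∈ L₂) ∧ l ∈ T.O ∧ T.red l = z := by
    intro z
    rcases hbS z.2 with hz | hz
    · obtain ⟨l, hl, hlO, hlr⟩ := hz
      exact ⟨l, Or.inl hl, hlO, hlr⟩
    · obtain ⟨l, hl, hlO, hlr⟩ := hz
      exact ⟨l, Or.inr hl, hlO, hlr⟩
  choose l hl12 hlO hlred using hlift
  have hlL : ∀ z, l z ∈ L₁ ⊔ L₂ := fun z =>
    (hl12 z).elim (fun h => Submodule.mem_sup_left h) (fun h => Submodule.mem_sup_right h)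
  have hfun : (fun z : b => T.red (l z)) = fun z : b => (z : ∀ i, Fb i) := funext hlred
  obtain ⟨c, hcA, hc⟩ := hC.exists_coeff (L₁ ⊔ L₂) l hlL hlO (by rw [hfun]; exact hbli)
    (by rw [hfun, Subtype.range_coe_subtype, Set.ofPred_mem_eq, hbspan, hspanSb]; exact h) hy hyO
  refine ⟨∑ z ∈ Finset.univ.filter (fun z => l z ∈ L₁), c z • l z, ?_,
    ∑ z ∈ Finset.univ.filter (fun z => ¬ l z ∈ L₁), c z • l z, ?_, ?_, ?_, ?_⟩
  · exact Submodule.sum_mem _ fun z hz => Submodule.smul_mem _ _ (Finset.mem_filter.1 hz).2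
  · exact Submodule.sum_mem _ fun z hz => Submodule.smul_mem _ _
      ((hl12 z).resolve_left (Finset.mem_filter.1 hz).2)
  · exact Subring.sum_mem _ fun z _ => T.smul_mem (hcA z) (hlO z)
  · exact Subring.sum_mem _ fun z _ => T.smul_mem (hcA z) (hlO z)
  · rw [hc, Finset.sum_filter_add_sum_filter_not]

end Fermat.Agent.S33.Depth
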