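import Fermat.Agent.S33.Depth.Diff
import Fermat.Agent.S33.Depth.Sum

/-!
# S33 / Depth / Const  (leaf D6) : the two charts  `yᵢ^p f = t + γ^p φᵢ`

`Fᵢ := yᵢ^p f`.  `F₁ ∈ L₁' := L(p a X_∞)`, `F₂ ∈ L₂' := L(p a X_0)` (`mem_L_add_iff_pow_mul_mem`, `bipole_smul`, exactly `hz₁'`, `hz₂'` in the proof of
`DR.Abs.exists_mem_L_of_glued_one`; `f ≠ 0` because `T.red f = 1`), both integral with reduction `1`.
`Opt.le` : `ρ = p / γ^(p-1) ∈ A`.  `Opt.diff` : `F₁ - F₂ = γ^p • ξ'`, `ξ' ∈ T.O`, `red ξ' = red ξ₀ ^ p + redA ρ • red ξ₀`.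
`ξ' = (γ^p)⁻¹ • F₁ - (γ^p)⁻¹ • F₂ ∈ L₁' ⊔ L₂'`.
`IsNodal.redSub_sup` (`a₀ ≤ p * a`) together with `IsPreNodal.redSub_eq` (for `(p a, 0)` and `(0, p a)`) gives
`redSub (L₁' ⊔ L₂') = redSub L₁' ⊔ redSub L₂'`; so `exists_add_of_redSub_sup` : `ξ' = φ₁ + ψ`, `φ₁ ∈ L₁' ∩ O`, `ψ ∈ L₂' ∩ O`; put `φ₂ := -ψ`.
Then `c := F₁ - γ^p • φ₁ = F₂ - γ^p • φ₂` lies in `L₁' ⊓ L₂'`, hence in `L(0)` (`mem_L_bipole_inf` with `D = 0`, `min (p a) 0 = 0`), hence is a constant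
`algebraMap K F t` (`mem_range_of_mem_L_zero`).  `c` is integral with `T.red c = 1` (`γ^p` small: `T.red_smul_of_small` or `T.red_smul` + `redA (γ^p) = 0`), so
`t ∈ A` and `redA t = 1` (look at one index `i₀`, `C.nodal.cart.nonempty`; `(T.R i₀).red_algebraMap'`/`red_ne_zero_iff`, injectivity of `algebraMap k (Fb i₀)`).
`red φ₁ - red φ₂ = red (φ₁ + ψ) = red ξ'`.
-/

set_option autoImplicit false

namespace Fermat.Agent.S33.Depth

open AlgebraicCurve Fermat.Agent.Lib.RR Fermat.Agent.GAL.RED Fermat.Agent.DR.Abs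

variable {K F k : Type*} [Field K] [Field F] [Algebra K F] [Field k] {ι : Type*}
  {Fb : ι → Type*} [∀ i, Field (Fb i)] [∀ i, Algebra k (Fb i)] {E : Type*}
  [IsFF K F] [IsAlgClosed K] [∀ i, IsFF k (Fb i)] [IsAlgClosed k] [Fintype ι] [Fintype E]

/-- **(D6)** -/
theorem Opt.exists_const {T : MultiRed K F k Fb} {x : F} {N : NodeData k Fb E} {a₀ p : ℕ} {f : F}
    {D : Divisor K F} {a : ℕ} (C : Ctx T x N a₀ p f D a) {y₁ y₂ ξ₀ : F} {γ : K}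
    (O : Opt T x N C.nodal.adapted D a y₁ y₂ ξ₀ γ) (hp : p.Prime) :
    ∃ (t : K) (φ₁ φ₂ : F), t ∈ T.A ∧ T.redA t = 1 ∧ φ₁ ∈ T.O ∧ φ₂ ∈ T.O ∧
      φ₁ ∈ riemannRochSpace (bipole K x (p * a) 0) ∧ φ₂ ∈ riemannRochSpace (bipole K x 0 (p * a)) ∧
      y₁ ^ p * f = algebraMap K F t + (γ ^ p) • φ₁ ∧ y₂ ^ p * f = algebraMap K F t + (γ ^ p) • φ₂ ∧
      T.red φ₁ - T.red φ₂ = T.red ξ₀ ^ p + T.redA ((p : K) / γ ^ (p - 1)) • T.red ξ₀ := by
  classical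
  have h := C.nodal
  have hne : Nonempty ι := h.cart.nonempty
  obtain ⟨i₀⟩ := id hne
  have hp0 : 0 < p := hp.pos
  have hf0 : f ≠ 0 := by
    rintro rfl
    have h1 := C.red
    rw [T.red_zero] at h1
    exact zero_ne_one (congrFun h1 i₀)
  have hfO : f ∈ T.O := T.mem_of_red_ne_zero fun i => by
    rw [C.red]; exact one_ne_zero
  have hρ := Opt.le C O hp
  obtain ⟨ξ', hξ'O, hdiff, hredξ'⟩ := Opt.diff C O hp hρ
  have hγp0 : γ ^ p ≠ 0 := pow_ne_zero _ O.γ_ne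
  have hγpA : γ ^ p ∈ T.A := pow_mem O.γ_small.1 p
  have hγp_red : T.redA (γ ^ p) = 0 := by
    by_contra hcon
    obtain ⟨-, -, h3⟩ := T.redA_ne_zero_iff.1 hcon
    have h4 : γ⁻¹ ∈ T.A := by
      have h5 : γ⁻¹ = (γ ^ p)⁻¹ * γ ^ (p - 1) := by
        obtain ⟨n, rfl⟩ : ∃ n, p = n + 1 := ⟨p - 1, by omega⟩
        rw [Nat.add_sub_cancel, pow_succ]
        have := O.γ_ne
        field_simp
      rw [h5]
      exact mul_mem h3 (pow_mem O.γ_small.1 _)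
    exact (T.redA_ne_zero_iff.2 ⟨O.γ_ne, O.γ_small.1, h4⟩) O.γ_small.2
  have hF₁ : y₁ ^ p * f ∈ riemannRochSpace (bipole K x (p * a) 0) := by
    have h3 := (mem_L_add_iff_pow_mul_mem hp0 hf0 C.div (bipole K x a 0) y₁).1 O.pair.mem₁
    rwa [← bipole_smul, mul_zero] at h3
  have hF₂ : y₂ ^ p * f ∈ riemannRochSpace (bipole K x 0 (p * a)) := by
    have h3 := (mem_L_add_iff_pow_mul_mem hp0 hf0 C.div (bipole K x 0 a) y₂).1 O.pair.mem₂
    rwa [← bipole_smul, mul_zero] at h3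
  have hF₁O : y₁ ^ p * f ∈ T.O := T.O.mul_mem (T.O.pow_mem O.pair.int₁ _) hfO
  have hF₂O : y₂ ^ p * f ∈ T.O := T.O.mul_mem (T.O.pow_mem O.pair.int₂ _) hfO
  have hF₁red : T.red (y₁ ^ p * f) = 1 := by
    rw [T.red_mul (T.O.pow_mem O.pair.int₁ _) hfO, T.red_pow, O.pair.red₁, C.red, one_pow, one_mul]
  have hapa : a₀ ≤ p * a := le_trans C.ha₀ (Nat.le_mul_of_pos_left a hp0)
  have hsup : T.redSub (riemannRochSpace (bipole K x (p * a) 0) ⊔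
      riemannRochSpace (bipole K x 0 (p * a))) ≤
      T.redSub (riemannRochSpace (bipole K x (p * a) 0)) ⊔
        T.redSub (riemannRochSpace (bipole K x 0 (p * a))) := by
    rw [h.redSub_sup hapa, h.toIsPreNodal.redSub_eq (a := p * a) (b := 0) (by omega),
      h.toIsPreNodal.redSub_eq (a := 0) (b := p * a) (by omega)]
  have hξ'W : ξ' ∈ riemannRochSpace (bipole K x (p * a) 0) ⊔
      riemannRochSpace (bipole K x 0 (p * a)) := by
    have h3 : ξ' = (γ ^ p)⁻¹ • (y₁ ^ p * f) + (-(γ ^ p)⁻¹) • (y₂ ^ p * f) := by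
      rw [neg_smul, ← sub_eq_add_neg, ← smul_sub, hdiff, smul_smul, inv_mul_cancel₀ hγp0,
        one_smul]
    rw [h3]
    exact Submodule.add_mem _ (Submodule.mem_sup_left (Submodule.smul_mem _ _ hF₁))
      (Submodule.mem_sup_right (Submodule.smul_mem _ _ hF₂))
  obtain ⟨φ₁, hφ₁L, ψ, hψL, hφ₁O, hψO, hsum⟩ :=
    exists_add_of_redSub_sup h.cart _ _ hsup hξ'W hξ'O
  rw [hsum, smul_add] at hdiff
  have hc2 : y₁ ^ p * f - γ ^ p • φ₁ = y₂ ^ p * f + γ ^ p • ψ := by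
    rw [sub_eq_iff_eq_add, add_assoc, add_comm (γ ^ p • ψ), ← hdiff]
    abel
  have hcL₁ : y₁ ^ p * f - γ ^ p • φ₁ ∈ riemannRochSpace (bipole K x (p * a) 0) :=
    Submodule.sub_mem _ hF₁ (Submodule.smul_mem _ _ hφ₁L)
  have hcL₂ : y₁ ^ p * f - γ ^ p • φ₁ ∈ riemannRochSpace (bipole K x 0 (p * a)) := by
    rw [hc2]
    exact Submodule.add_mem _ hF₂ (Submodule.smul_mem _ _ hψL)
  have hc0 : y₁ ^ p * f - γ ^ p • φ₁ ∈ riemannRochSpace (0 : Divisor K F) := by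
    have h1 : y₁ ^ p * f - γ ^ p • φ₁ ∈ riemannRochSpace (bipole K x (p * a) 0 + 0) := by
      rwa [add_zero]
    have h2 : y₁ ^ p * f - γ ^ p • φ₁ ∈ riemannRochSpace (bipole K x 0 (p * a) + 0) := by
      rwa [add_zero]
    have h3 := mem_L_bipole_inf x 0 h1 h2
    have h4 : bipole K x (min (p * a) 0) (min 0 (p * a)) = 0 := by
      simp [bipole]
    rwa [h4, zero_add] at h3
  obtain ⟨t, ht⟩ := mem_range_of_mem_L_zero hc0
  have hcred : T.red (y₁ ^ p * f - γ ^ p • φ₁) = 1 := by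
    rw [T.red_sub hF₁O (T.smul_mem hγpA hφ₁O), hF₁red, T.red_smul hγpA hφ₁O, hγp_red, zero_smul,
      sub_zero]
  have htred : T.redA t = 1 := by
    have h1 := T.red_algebraMap t i₀
    rw [ht, hcred] at h1
    apply (algebraMap k (Fb i₀)).injective
    rw [map_one, ← h1]
    rfl
  have htA : t ∈ T.A := (T.redA_ne_zero_iff.1 (by rw [htred]; exact one_ne_zero)).2.1
  refine ⟨t, φ₁, -ψ, htA, htred, hφ₁O, T.O.neg_mem hψO, hφ₁L, Submodule.neg_mem _ hψL, ?_, ?_, ?_⟩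
  · rw [ht]
    abel
  · rw [ht, hc2, smul_neg]
    abel
  · rw [T.red_neg, sub_neg_eq_add, ← T.red_add hφ₁O hψO, ← hsum, hredξ']

end Fermat.Agent.S33.Depth
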