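import Fermat.Agent.DR.Abs.Lifting

/-!
# S33 / Depth / Defs : the depth of a `p`-torsion class in the kernel of reduction (`p` = residue characteristic)

Setting of `DR/Abs` : `T : MultiRed K F k Fb` a finite family of reductions of the function field `F / K`, `IsNodal T x N a₀`.
Now `k` has characteristic `p` and `div f = p D`, `T.red f = 1`.  Notation of `DR/Abs/Lifting.lean` : `X_∞ = (x)_∞`, `X_0 = (x)_0`,
`L₁ = L(a X_∞ + D)`, `L₂ = L(a X_0 + D)`, `G(a,b) = gluedSub N (T.red x) _ 1 a b`.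

* `IsSmall T c`   : `c` lies in the maximal ideal of `T.A`.
* `InS T p π f`   : for every valuation `i`, `f` is congruent to `1` modulo `π O_i`, up to a `p`-th power.
* `Inertial T x s σ` : `s` is a `σ`-semilinear automorphism of `F` which preserves all the valuations, acts trivially on the
  residue fields and preserves the spaces `L(a X_∞ + b X_0)`.
* `Ctx`, `IsPair`, `Opt` : bundles of hypotheses.
-/

set_option autoImplicit false

namespace Fermat.Agent.S33.Depth

open AlgebraicCurve Fermat.Agent.Lib.RR Fermat.Agent.GAL.RED Fermat.Agent.DR.Abs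

variable {K F k : Type*} [Field K] [Field F] [Algebra K F] [Field k] {ι : Type*}
  {Fb : ι → Type*} [∀ i, Field (Fb i)] [∀ i, Algebra k (Fb i)] {E : Type*}

/-- `c` lies in the maximal ideal of the valuation ring of constants. -/
def IsSmall (T : MultiRed K F k Fb) (c : K) : Prop := c ∈ T.A ∧ T.redA c = 0

/-- For every valuation `i`, `f ≡ 1 mod π O_i` up to a `p`-th power. -/
def InS (T : MultiRed K F k Fb) (p : ℕ) (π : K) (f : F) : Prop :=
  ∀ i, ∃ g : F, g ≠ 0 ∧ ∃ h ∈ (T.R i).O, f * g ^ p = 1 + algebraMap K F π * h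

/-- An "inertial" semilinear automorphism. -/
structure Inertial [HasPrincipalDivisors K F] (T : MultiRed K F k Fb) (x : F) (s : F ≃+* F)
    (σ : K ≃+* K) : Prop where
  semilinear : ∀ a : K, s (algebraMap K F a) = algebraMap K F (σ a)
  mem_A : ∀ a ∈ T.A, σ a ∈ T.A
  redA : ∀ a ∈ T.A, T.redA (σ a) = T.redA a
  mem_O : ∀ i, ∀ y ∈ (T.R i).O, s y ∈ (T.R i).O
  red : ∀ i, ∀ y ∈ (T.R i).O, (T.R i).red (s y) = (T.R i).red y
  mem_L : ∀ (a b : ℕ) (y : F), y ∈ riemannRochSpace (bipole K x a b) →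
    s y ∈ riemannRochSpace (bipole K x a b)

/-- A pair of integral sections of `O(D)` on the two charts, both reducing to `1`. -/
structure IsPair [HasPrincipalDivisors K F] (T : MultiRed K F k Fb) (x : F) (D : Divisor K F) (a : ℕ)
    (y₁ y₂ : F) : Prop where
  mem₁ : y₁ ∈ riemannRochSpace (bipole K x a 0 + D)
  mem₂ : y₂ ∈ riemannRochSpace (bipole K x 0 a + D)
  int₁ : y₁ ∈ T.O
  int₂ : y₂ ∈ T.O
  red₁ : T.red y₁ = 1
  red₂ : T.red y₂ = 1

variable [IsFF K F] [IsAlgClosed K] [∀ i, IsFF k (Fb i)] [IsAlgClosed k]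

/-- The standing hypotheses: nodal reduction, `div f = p D`, `red f = 1`, the reductions of the twisted spaces are the untwisted
glued spaces (automatic, see `Structure.lean`), `f` is not a `p`-th power (`L(D) = 0`), `a` large. -/
structure Ctx (T : MultiRed K F k Fb) (x : F) (N : NodeData k Fb E) (a₀ p : ℕ) (f : F)
    (D : Divisor K F) (a : ℕ) : Prop where
  nodal : IsNodal T x N a₀
  div : divOf (K := K) f = p • D
  red : T.red f = 1
  glued : ∀ a' b' : ℕ, a ≤ a' + b' →
    T.redSub (riemannRochSpace (bipole K x a' b' + D)) = gluedSub N (T.red x) nodal.adapted 1 a' b'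
  noSec : ∀ y : F, y ≠ 0 → y ∉ riemannRochSpace D
  ha₀ : a₀ ≤ a
  ha : 1 ≤ a

/-- An optimal pair: `y₁ - y₂ = γ ξ₀` with `red ξ₀` not a coboundary. -/
structure Opt (T : MultiRed K F k Fb) (x : F) (N : NodeData k Fb E) (hN : N.Adapted (T.red x))
    (D : Divisor K F) (a : ℕ) (y₁ y₂ ξ₀ : F) (γ : K) : Prop where
  γ_ne : γ ≠ 0
  γ_small : IsSmall T γ
  pair : IsPair T x D a y₁ y₂
  ξ_int : ξ₀ ∈ T.O
  sub_eq : y₁ - y₂ = γ • ξ₀
  not_cob : T.red ξ₀ ∉ gluedSub N (T.red x) hN 1 a 0 ⊔ gluedSub N (T.red x) hN 1 0 a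
  mem_aa : T.red ξ₀ ∈ gluedSub N (T.red x) hN 1 a a

end Fermat.Agent.S33.Depth
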