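import Fermat.Agent.S33.Depth.Defs
import Fermat.Agent.S33.Depth.Binom

/-!
# S33 / Depth / Diff  (leaf D5) : `y₁^p f - y₂^p f` and the bound `v(γ) ≤ 1/(p-1)`

`y₁ = y₂ + γ ξ₀`.  By `exists_binom_prime T.O` (with `y = y₂`, `z = γ • ξ₀`) :
`y₁^p - y₂^p = γ^p ξ₀^p + p γ ξ₀ y₂^(p-1) + p γ² ξ₀² r`, `r ∈ T.O`.   Put `ρ := p / γ^(p-1)`, so `p γ = ρ γ^p`.

## `Opt.diff`  (`ρ ∈ A`)
`ξ' := f * (ξ₀^p + ρ • (ξ₀ y₂^(p-1)) + (ρ γ) • (ξ₀² r))`.  It is integral, `y₁^p f - y₂^p f = γ^p • ξ'` (`field_simp`-type identity, `γ ≠ 0`), and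
`red ξ' = red ξ₀ ^ p + redA ρ • red ξ₀` (`C.red`, `O.pair.red₂`, `redA (ρ γ) = 0` because `γ` is small; `T.red_mul`, `T.red_add`, `T.red_smul`, `T.red_pow`).

## `Opt.le`  (`ρ ∈ A`)
Suppose `ρ ∉ A`; then `ρ⁻¹ ∈ A` is small (`T.A.mem_or_inv_mem`, `T.redA_ne_zero_iff`), `γ^p = ρ⁻¹ p γ`, and
`ξ' := f * (ξ₀ y₂^(p-1) + γ • (ξ₀² r) + ρ⁻¹ • ξ₀^p)` is integral with `red ξ' = red ξ₀` and `y₁^p f - y₂^p f = (p γ) • ξ'`; `p γ ≠ 0` (`ρ ∉ A` forces `(p : K) ≠ 0`).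
Now finish EXACTLY as at the end of the proof of `DR.Abs.exists_mem_L_of_glued_one` (`hz₁'`, `hz₂'`, `hξ'W`, `h5`, `h8`) : `yᵢ^p f ∈ L(p a X_∞)`, resp. `L(p a X_0)`
(`mem_L_add_iff_pow_mul_mem`, `bipole_smul`), so `ξ' ∈ L(p a X_∞) ⊔ L(p a X_0)`, `red ξ₀ = red ξ' ∈ G(pa,0) ⊔ G(0,pa)` (`IsNodal.redSub_sup`), and with `O.mem_aa`,
`gluedSub_sup_inf` : `red ξ₀ ∈ G(a,0) ⊔ G(0,a)`, contradicting `O.not_cob`.
-/

set_option autoImplicit false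

namespace Fermat.Agent.S33.Depth

open AlgebraicCurve Fermat.Agent.Lib.RR Fermat.Agent.GAL.RED Fermat.Agent.DR.Abs

variable {K F k : Type*} [Field K] [Field F] [Algebra K F] [Field k] {ι : Type*}
  {Fb : ι → Type*} [∀ i, Field (Fb i)] [∀ i, Algebra k (Fb i)] {E : Type*}
  [IsFF K F] [IsAlgClosed K] [∀ i, IsFF k (Fb i)] [IsAlgClosed k] [Fintype ι] [Fintype E]

theorem Opt.diff {T : MultiRed K F k Fb} {x : F} {N : NodeData k Fb E} {a₀ p : ℕ} {f : F}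
    {D : Divisor K F} {a : ℕ} (C : Ctx T x N a₀ p f D a) {y₁ y₂ ξ₀ : F} {γ : K}
    (O : Opt T x N C.nodal.adapted D a y₁ y₂ ξ₀ γ) (hp : p.Prime)
    (hρ : (p : K) / γ ^ (p - 1) ∈ T.A) :
    ∃ ξ' ∈ T.O, y₁ ^ p * f - y₂ ^ p * f = (γ ^ p) • ξ' ∧
      T.red ξ' = T.red ξ₀ ^ p + T.redA ((p : K) / γ ^ (p - 1)) • T.red ξ₀ := by
  have hγ := O.γ_ne
  have hγA : γ ∈ T.A := O.γ_small.1
  have hγ0 : T.redA γ = 0 := O.γ_small.2
  have hy₂ := O.pair.int₂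
  have hξ := O.ξ_int
  have hz : γ • ξ₀ ∈ T.O := T.smul_mem hγA hξ
  obtain ⟨r, hr, hbin⟩ := exists_binom_prime T.O hp hy₂ hz
  have hy₁ : y₁ = y₂ + γ • ξ₀ := by rw [← O.sub_eq]; ring
  have hfO : f ∈ T.O := T.mem_of_red_ne_zero fun i => by
    rw [C.red]; exact one_ne_zero
  set ρ := (p : K) / γ ^ (p - 1) with hρdef
  have h1 : ξ₀ ^ p ∈ T.O := T.O.pow_mem hξ _
  have h2 : ξ₀ * y₂ ^ (p - 1) ∈ T.O := T.O.mul_mem hξ (T.O.pow_mem hy₂ _)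
  have h3 : ξ₀ ^ 2 * r ∈ T.O := T.O.mul_mem (T.O.pow_mem hξ _) hr
  have h3' : γ • (ξ₀ ^ 2 * r) ∈ T.O := T.smul_mem hγA h3
  have h4 : ρ • (ξ₀ * y₂ ^ (p - 1)) ∈ T.O := T.smul_mem hρ h2
  have h5 : ρ • γ • (ξ₀ ^ 2 * r) ∈ T.O := T.smul_mem hρ h3'
  have hpγ : (p : K) = ρ * γ ^ (p - 1) := by
    rw [hρdef, div_mul_cancel₀ _ (pow_ne_zero _ hγ)]
  have hpp : γ ^ p = γ * γ ^ (p - 1) := by
    rw [← pow_succ', Nat.sub_add_cancel hp.one_le]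
  refine ⟨f * (ξ₀ ^ p + ρ • (ξ₀ * y₂ ^ (p - 1)) + ρ • γ • (ξ₀ ^ 2 * r)),
    T.O.mul_mem hfO (T.O.add_mem (T.O.add_mem h1 h4) h5), ?_, ?_⟩
  · have hpF : (p : F) = algebraMap K F ρ * algebraMap K F γ ^ (p - 1) := by
      rw [← map_pow, ← map_mul, ← hpγ, map_natCast]
    rw [hy₁, hbin, hpF]
    simp only [Algebra.smul_def, map_pow]
    have hpp' : algebraMap K F γ ^ p = algebraMap K F γ * algebraMap K F γ ^ (p - 1) := by
      rw [← map_pow, hpp, map_mul, map_pow]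
    rw [mul_pow, hpp']
    generalize algebraMap K F γ ^ (p - 1) = G
    generalize algebraMap K F γ = g
    generalize algebraMap K F ρ = R
    generalize y₂ ^ (p - 1) = Y
    generalize y₂ ^ p = Y'
    generalize ξ₀ ^ p = X
    ring
  · rw [T.red_mul hfO (T.O.add_mem (T.O.add_mem h1 h4) h5), C.red, one_mul,
      T.red_add (T.O.add_mem h1 h4) h5, T.red_add h1 h4, T.red_pow, T.red_smul hρ h2,
      T.red_mul hξ (T.O.pow_mem hy₂ _), T.red_pow, O.pair.red₂, one_pow, mul_one,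
      T.red_smul hρ h3', T.red_smul hγA h3, hγ0, zero_smul, smul_zero, add_zero]

/-- **(D5)** `v(γ) ≤ 1/(p-1)`. -/
theorem Opt.le {T : MultiRed K F k Fb} {x : F} {N : NodeData k Fb E} {a₀ p : ℕ} {f : F}
    {D : Divisor K F} {a : ℕ} (C : Ctx T x N a₀ p f D a) {y₁ y₂ ξ₀ : F} {γ : K}
    (O : Opt T x N C.nodal.adapted D a y₁ y₂ ξ₀ γ) (hp : p.Prime) :
    (p : K) / γ ^ (p - 1) ∈ T.A := by
  by_contra hρ
  have hne : Nonempty ι := C.nodal.cart.nonempty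
  obtain ⟨i₀⟩ := id hne
  have hγ := O.γ_ne
  have hγA : γ ∈ T.A := O.γ_small.1
  have hγ0 : T.redA γ = 0 := O.γ_small.2
  have hy₂ := O.pair.int₂
  have hξ := O.ξ_int
  have hz : γ • ξ₀ ∈ T.O := T.smul_mem hγA hξ
  obtain ⟨r, hr, hbin⟩ := exists_binom_prime T.O hp hy₂ hz
  have hy₁ : y₁ = y₂ + γ • ξ₀ := by rw [← O.sub_eq]; ring
  have hfO : f ∈ T.O := T.mem_of_red_ne_zero fun i => by
    rw [C.red]; exact one_ne_zero
  have hf0 : f ≠ 0 := by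
    rintro rfl
    have := C.red
    rw [T.red_zero] at this
    exact zero_ne_one (congrFun this i₀)
  set ρ := (p : K) / γ ^ (p - 1) with hρdef
  have hρ0 : ρ ≠ 0 := by
    intro h0
    rw [h0] at hρ
    exact hρ T.A.zero_mem
  have hp0 : (p : K) ≠ 0 := by
    intro h0
    apply hρ0
    rw [hρdef, h0, zero_div]
  have hρi : ρ⁻¹ ∈ T.A := (T.A.mem_or_inv_mem ρ).resolve_left hρ
  have hρi0 : T.redA ρ⁻¹ = 0 := by
    by_contra h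
    have := (T.redA_ne_zero_iff.1 h).2.2
    rw [inv_inv] at this
    exact hρ this
  have h1 : ξ₀ ^ p ∈ T.O := T.O.pow_mem hξ _
  have h2 : ξ₀ * y₂ ^ (p - 1) ∈ T.O := T.O.mul_mem hξ (T.O.pow_mem hy₂ _)
  have h3 : ξ₀ ^ 2 * r ∈ T.O := T.O.mul_mem (T.O.pow_mem hξ _) hr
  have h3' : γ • (ξ₀ ^ 2 * r) ∈ T.O := T.smul_mem hγA h3
  have h4 : ρ⁻¹ • ξ₀ ^ p ∈ T.O := T.smul_mem hρi h1
  have hpγ : γ ^ (p - 1) = ρ⁻¹ * (p : K) := by
    rw [hρdef, inv_div, div_mul_cancel₀ _ hp0]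
  have hpp : γ ^ p = γ * γ ^ (p - 1) := by
    rw [← pow_succ', Nat.sub_add_cancel hp.one_le]
  set ξ' := f * (ξ₀ * y₂ ^ (p - 1) + γ • (ξ₀ ^ 2 * r) + ρ⁻¹ • ξ₀ ^ p) with hξ'def
  have hξ'O : ξ' ∈ T.O := T.O.mul_mem hfO (T.O.add_mem (T.O.add_mem h2 h3') h4)
  have hrξ' : T.red ξ' = T.red ξ₀ := by
    rw [hξ'def, T.red_mul hfO (T.O.add_mem (T.O.add_mem h2 h3') h4), C.red, one_mul,
      T.red_add (T.O.add_mem h2 h3') h4, T.red_add h2 h3', T.red_smul hρi h1, hρi0, zero_smul,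
      T.red_mul hξ (T.O.pow_mem hy₂ _), T.red_pow, O.pair.red₂, one_pow, mul_one,
      T.red_smul hγA h3, hγ0, zero_smul, add_zero, add_zero]
  have hsc0 : (p : K) * γ ≠ 0 := mul_ne_zero hp0 hγ
  have hcξ' : ((p : K) * γ) • ξ' = y₁ ^ p * f - y₂ ^ p * f := by
    have hpp' : algebraMap K F γ ^ p
        = algebraMap K F γ * (algebraMap K F ρ⁻¹ * (p : F)) := by
      rw [← map_pow, hpp, hpγ, map_mul, map_mul, map_natCast]
    rw [hy₁, hbin, hξ'def]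
    simp only [Algebra.smul_def, map_mul, map_natCast]
    rw [mul_pow, hpp']
    generalize algebraMap K F γ = g
    generalize algebraMap K F ρ⁻¹ = R
    generalize y₂ ^ (p - 1) = Y
    generalize y₂ ^ p = Y'
    generalize ξ₀ ^ p = X
    ring
  have hm0 : 0 < p := hp.pos
  have hama : a ≤ p * a := Nat.le_mul_of_pos_left a hm0
  have hz₁' : y₁ ^ p * f ∈ riemannRochSpace (bipole K x (p * a) 0) := by
    have h3 := (mem_L_add_iff_pow_mul_mem hm0 hf0 C.div (bipole K x a 0) y₁).1 O.pair.mem₁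
    rwa [← bipole_smul, mul_zero] at h3
  have hz₂' : y₂ ^ p * f ∈ riemannRochSpace (bipole K x 0 (p * a)) := by
    have h3 := (mem_L_add_iff_pow_mul_mem hm0 hf0 C.div (bipole K x 0 a) y₂).1 O.pair.mem₂
    rwa [← bipole_smul, mul_zero] at h3
  have hξ'W : ξ' ∈ riemannRochSpace (bipole K x (p * a) 0) ⊔
      riemannRochSpace (bipole K x 0 (p * a)) := by
    have h3 : ξ' = ((p : K) * γ)⁻¹ • (y₁ ^ p * f) + (-((p : K) * γ)⁻¹) • (y₂ ^ p * f) := by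
      rw [neg_smul, ← sub_eq_add_neg, ← smul_sub, ← hcξ', smul_smul, inv_mul_cancel₀ hsc0,
        one_smul]
    rw [h3]
    exact Submodule.add_mem _ (Submodule.mem_sup_left (Submodule.smul_mem _ _ hz₁'))
      (Submodule.mem_sup_right (Submodule.smul_mem _ _ hz₂'))
  have h5 : T.red ξ₀ ∈ gluedSub N (T.red x) C.nodal.adapted 1 (p * a) 0 ⊔
      gluedSub N (T.red x) C.nodal.adapted 1 0 (p * a) := by
    rw [← C.nodal.redSub_sup (le_trans C.ha₀ hama), ← hrξ']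
    exact ⟨ξ', hξ'W, hξ'O, rfl⟩
  apply O.not_cob
  rw [← gluedSub_sup_inf N (T.red x) C.nodal.adapted 1 hama hama]
  exact ⟨h5, O.mem_aa⟩

end Fermat.Agent.S33.Depth
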