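import Fermat.Agent.S19.Weil.Pairing
import Fermat.Agent.DR.Conc.LiftAbs

/-!
# S33 / Depth / Eval : two classes with deep representatives in opposite charts are orthogonal for the Weil pairing

`R : RedData K F k Fb` a good reduction with reduction map on places `r` (`IsRedMap R r`), `x : F` a coordinate such that poles (zeros) of `x` reduce to poles (zeros) of
`x̄ = R.red x` (`GoodCoord`).   `IsChart R x c f` : `f = t + c φ`, `t ∈ A`, `t̄ = 1`, `φ` integral and regular outside the poles of `x`.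
MAIN RESULT `weil_eq_one_of_charts` : if `div f = p D`, `div g = p E`, `IsChart R x c f`, `IsChart R x⁻¹ c g`, `c` small and `p ∉ c^(p-1) A`, then `e_p([D],[E]) = 1`.
(`ev`, `evU`, `evD`, `weil`, `IsRep` : `S19/Weil/{Ev,PairAux,Pairing}.lean`.)
-/

set_option autoImplicit false

namespace Fermat.Agent.S33.Depth

open AlgebraicCurve Fermat.Agent.Lib.RR Fermat.Agent.GAL.RED Fermat.Agent.S19.Weil

section pure

/-- **(E4)** (pure Mathlib) a `p`-th root of unity which is `≡ 1 mod c` is `1`, unless `p ∈ c^(p-1) A`.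
PROOF. Suppose `z ≠ 1`; then `z` is a primitive `p`-th root of unity (`IsPrimitiveRoot.of_... `: `hp`, `orderOf`/`IsPrimitiveRoot.iff`), and
`(p : K) = ∏_{i ∈ Finset.Ico 1 p} (1 - z^i)` (evaluate `Polynomial.cyclotomic p K = ∏ (X - μ)` at `1`: `Polynomial.eval_one_cyclotomic_prime`,
`Polynomial.cyclotomic_eq_prod_X_sub_primitiveRoots`; or `IsPrimitiveRoot.pow_sub_pow_eq_prod_sub_mul`-type lemmas / `geom_sum` factorisation `∑_{j<p} X^j = ∏_{i=1}^{p-1} (X - z^i)`).
`1 - z^i = (1 - z) (1 + z + ... + z^(i-1))` (`mul_geom_sum`/`geom_sum_mul`), `z ∈ A` (`z = 1 + c a`), `1 - z = - c a`; so each factor is `c * (element of A)` and the product of the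
`p - 1` factors is `c^(p-1) * (element of A)` (`Finset.prod_mul_distrib`, `Finset.prod_const`, `Nat.card_Ico`). -/
theorem eq_one_of_pow_eq_one {K : Type*} [Field K] (A : ValuationSubring K) {p : ℕ} (hp : p.Prime)
    {c z : K} (hc : c ∈ A) (hz : z ^ p = 1) (h : ∃ a ∈ A, z = 1 + c * a)
    (hdeep : ¬ ∃ a ∈ A, (p : K) = c ^ (p - 1) * a) : z = 1 := by
  by_contra hz1
  apply hdeep
  obtain ⟨a, ha, hza⟩ := h
  have hzA : z ∈ A := by
    rw [hza]; exact A.add_mem _ _ A.one_mem (A.mul_mem _ _ hc ha)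
  have hprim : IsPrimitiveRoot z p :=
    isPrimitiveRoot_of_mem_nthRootsFinset hp
      ((Polynomial.mem_nthRootsFinset hp.pos (1 : K)).2 hz) hz1
  obtain ⟨n, rfl⟩ : ∃ n, p = n + 1 := ⟨p - 1, (Nat.succ_pred_eq_of_pos hp.pos).symm⟩
  have h1 := hprim.prod_one_sub_pow_eq_order
  have h2 : ∀ k ∈ Finset.range n,
      1 - z ^ (k + 1) = c * (-a * ∑ i ∈ Finset.range (k + 1), z ^ i) := by
    intro k _
    rw [← geom_sum_mul_neg z (k + 1)]
    have : 1 - z = -(c * a) := by rw [hza]; ring
    rw [this]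
    ring
  rw [Finset.prod_congr rfl h2, Finset.prod_mul_distrib, Finset.prod_const, Finset.card_range]
    at h1
  refine ⟨∏ k ∈ Finset.range n, (-a * ∑ i ∈ Finset.range (k + 1), z ^ i), ?_, ?_⟩
  · refine Subring.prod_mem A.toSubring fun k _ => ?_
    exact A.mul_mem _ _ (A.neg_mem _ ha)
      (Subring.sum_mem A.toSubring fun i _ => A.pow_mem hzA i)
  · rw [Nat.add_sub_cancel, h1]
    push_cast
    ring

end pure

variable {K F k Fb : Type*} [Field K] [IsAlgClosed K] [CharZero K] [Field F] [Algebra K F] [IsFF K F]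
  [Field k] [IsAlgClosed k] [Field Fb] [Algebra k Fb] [IsFF k Fb]
  {R : RedData K F k Fb} {r : Place K F → Place k Fb}

/-- **(E1)** values of integral functions: if `φ` is integral and has no pole in the residue disc of `P` then `φ(P) ∈ A`.
PROOF (the trick of `RED.IsRedMap.exists_eval_small`).  `b := ev P φ`; `φ ∈ P.toValuationSubring` (`mem_iff_ord`, `h P rfl`).  If `φ = algebraMap b'` is constant then `b = b'` and
`b' ∈ A` because `φ ∈ R.O` (`R.algebraMap_mem_iff`-type lemma in `GAL/RED/Basic.lean`; else: if `b' ∉ A`, `b'⁻¹` is small and `1 = b'⁻¹ • φ` would reduce to `0`).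
Otherwise `0 < P.ord (φ - b)` (`ord_sub_ev_pos`).  Suppose `b ∉ A`: `b⁻¹ ∈ A`, `redA b⁻¹ = 0`; `y := b⁻¹ • φ - 1 = b⁻¹ • (φ - b)` has `R.red y = -1 ≠ 0`, no pole in the disc of `r P` and a zero
at `P`, so `0 < (r P).ord (R.red y)` by `hr.ord_red_pos`; but `ord (-1) = 0`. -/
theorem ev_mem_A (hr : IsRedMap R r) {φ : F} (hφ : φ ∈ R.O) (P : Place K F)
    (h : ∀ P', r P' = r P → 0 ≤ P'.ord φ) : ev P φ ∈ R.A := by
  have hmemP : φ ∈ P.toValuationSubring := (mem_iff_ord P φ).2 (Or.inr (h P rfl))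
  set b : K := ev P φ with hbdef
  rcases ord_sub_ev_pos P hmemP with hb | hb'
  · rw [← hbdef] at hb
    rw [hb] at hφ
    exact (R.algebraMap_mem_iff b).1 hφ
  rw [← hbdef] at hb'
  have hsub0 : φ - algebraMap K F b ≠ 0 := by
    intro h0
    rw [h0, Place.ord_zero] at hb'
    exact lt_irrefl _ hb'
  have hnp : ∀ P', r P' = r P → 0 ≤ P'.ord (φ - algebraMap K F b) := by
    intro P' hP'
    have h1 := min_le_ord_add P' (f := φ) (g := -algebraMap K F b)
      (by rw [← sub_eq_add_neg]; exact hsub0)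
    rw [ord_neg, ord_algebraMap, ← sub_eq_add_neg] at h1
    exact le_trans (le_min (h P' hP') (le_refl _)) h1
  by_contra hbA
  have hb0 : b ≠ 0 := fun h0 => hbA (h0 ▸ R.A.zero_mem)
  have hinv : b⁻¹ ∈ R.A := (R.A.mem_or_inv_mem b).resolve_left hbA
  have hinv0 : R.redA b⁻¹ = 0 := by
    by_contra h1
    have := (R.redA_ne_zero_iff.mp h1).2.2
    rw [inv_inv] at this
    exact hbA this
  set y : F := algebraMap K F b⁻¹ * (φ - algebraMap K F b) with hy
  have hy' : y = algebraMap K F b⁻¹ * φ - 1 := by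
    rw [hy, mul_sub, ← map_mul, inv_mul_cancel₀ hb0, map_one]
  have hmem : algebraMap K F b⁻¹ * φ ∈ R.O := R.O.mul_mem _ _ (R.algebraMap_mem _ hinv) hφ
  have hred : R.red y = -1 := by
    rw [hy', R.red_sub hmem R.O.one_mem, R.red_mul (R.algebraMap_mem _ hinv) hφ,
      R.red_algebraMap hinv, hinv0, map_zero, zero_mul, R.red_one, zero_sub]
  have hredne : R.red y ≠ 0 := by
    rw [hred]
    exact neg_ne_zero.mpr one_ne_zero
  have hc0 : algebraMap K F b⁻¹ ≠ 0 := by
    simpa using hb0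
  have hord : ∀ P' : Place K F, P'.ord y = P'.ord (φ - algebraMap K F b) := by
    intro P'
    rw [hy, P'.ord_mul hc0 hsub0, ord_algebraMap, zero_add]
  have hpos := hr.ord_red_pos hredne (r P) (fun P' hP' => by rw [hord]; exact hnp P' hP') rfl
    (by rw [hord]; exact hb')
  rw [hred, ord_neg, ← map_one (algebraMap k Fb), ord_algebraMap] at hpos
  exact lt_irrefl _ hpos

/-- poles of `x` reduce to poles of `x̄`, zeros to zeros. -/
structure GoodCoord (R : RedData K F k Fb) (r : Place K F → Place k Fb) (x : F) : Prop where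
  pole : ∀ P : Place K F, P.ord x < 0 → (r P).ord (R.red x) < 0
  zero : ∀ P : Place K F, 0 < P.ord x → 0 < (r P).ord (R.red x)

/-- **(E2a)**
PROOF. `DR.Conc.map_poleDiv_of_degree_le R r hr x _ hdeg.le` : `r_* (x)_∞ = (x̄)_∞`, `r_* (x)_0 = (x̄)_0`.  If `P.ord x < 0` then `(x)_∞ P > 0`, so `(r_* (x)_∞) (r P) > 0`
(`RED.mapDomain_apply_pos`, `poleDiv ≥ 0`), i.e. `max (- ord x̄) 0 > 0` at `r P` (`poleDiv_apply`).  Same for the zeros (`Place.ord_inv`). -/
theorem goodCoord_of_degree (hr : IsRedMap R r) {x : F} (hx : R.red x ≠ 0)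
    (hdeg : Divisor.degree (poleDiv (K := K) x) = Divisor.degree (poleDiv (K := k) (R.red x))) :
    GoodCoord R r x := by
  obtain ⟨h1, h2⟩ := Fermat.Agent.DR.Conc.map_poleDiv_of_degree_le R r hr x hx hdeg.le
  constructor
  · intro P hP
    have hpos : 0 < Finsupp.mapDomain r (poleDiv (K := K) x) (r P) :=
      mapDomain_apply_pos r _ (r P) (fun a _ => by rw [poleDiv_apply]; exact le_max_right _ _) rfl
        (by rw [poleDiv_apply]; exact lt_max_of_lt_left (by omega))
    rw [h1, poleDiv_apply] at hpos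
    rcases lt_max_iff.1 hpos with h | h
    · omega
    · exact absurd h (lt_irrefl _)
  · intro P hP
    have hpos : 0 < Finsupp.mapDomain r (poleDiv (K := K) x⁻¹) (r P) :=
      mapDomain_apply_pos r _ (r P) (fun a _ => by rw [poleDiv_apply]; exact le_max_right _ _) rfl
        (by rw [poleDiv_apply, Place.ord_inv]; exact lt_max_of_lt_left (by omega))
    rw [h2, poleDiv_apply, Place.ord_inv] at hpos
    rcases lt_max_iff.1 hpos with h | h
    · omega
    · exact absurd h (lt_irrefl _)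

theorem GoodCoord.inv {x : F} (h : GoodCoord R r x) : GoodCoord R r x⁻¹ := by
  constructor
  · intro P hP
    rw [Place.ord_inv] at hP
    rw [R.red_inv, Place.ord_inv]
    have := h.zero P (by omega)
    omega
  · intro P hP
    rw [Place.ord_inv] at hP
    rw [R.red_inv, Place.ord_inv]
    have := h.pole P (by omega)
    omega

/-- `f = t + c φ`, `t̄ = 1`, `φ` integral, regular outside the poles of `x`. -/
def IsChart (R : RedData K F k Fb) (x : F) (c : K) (f : F) : Prop :=
  ∃ (t : K) (φ : F) (a : ℕ), t ∈ R.A ∧ R.redA t = 1 ∧ φ ∈ R.O ∧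
    φ ∈ riemannRochSpace (a • poleDiv (K := K) x) ∧ f = algebraMap K F t + c • φ

/-- **(E2b)** zeros and poles of a chart function reduce to poles of `x̄`.
PROOF. `f = t + c φ`.  A pole of `φ` is a pole of `x` (`mem_riemannRochSpace_iff`, `poleDiv_apply`).
If `P.ord f < 0` then `P.ord φ < 0` (otherwise `f` is regular at `P`), so `P.ord x < 0`: `hx.pole`.
If `0 < P.ord f` : suppose no `P'` in the disc of `r P` is a pole of `φ`; then `ev P φ ∈ A` (`ev_mem_A`), and `0 = ev P f = t + c * ev P φ` (`ev_add`, `ev_mul`/`ev` of constants,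
`ev_eq_zero_of_ord_pos`), so `t = - c * ev P φ` is small: contradiction with `redA t = 1`.  So some `P'` with `r P' = r P` is a pole of `φ`, hence of `x`: `hx.pole P'`. -/
theorem IsChart.ord_red_neg (hr : IsRedMap R r) {x : F} (hx : GoodCoord R r x) {c : K} (hc : c ∈ R.A)
    (hc' : R.redA c = 0) {f : F} (hf : IsChart R x c f) {P : Place K F} (hP : P.ord f ≠ 0) :
    (r P).ord (R.red x) < 0 := by
  obtain ⟨t, φ, a, htA, htred, hφO, hφL, rfl⟩ := hf
  -- a pole of `φ` is a pole of `x`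
  have hpole : ∀ Q : Place K F, Q.ord φ < 0 → Q.ord x < 0 := by
    intro Q hQ
    rcases (mem_riemannRochSpace_iff.1 hφL) Q with h0 | h1
    · rw [h0, Place.ord_zero] at hQ
      exact absurd hQ (lt_irrefl _)
    · rw [Finsupp.smul_apply, poleDiv_apply] at h1
      by_contra hcon
      push Not at hcon
      rw [max_eq_right (by omega), smul_zero, neg_zero] at h1
      omega
  suffices hex : ∃ P', r P' = r P ∧ P'.ord φ < 0 by
    obtain ⟨P', hP', hneg⟩ := hex
    rw [← hP']
    exact hx.pole P' (hpole P' hneg)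
  by_contra hcon
  push Not at hcon
  have hev := ev_mem_A hr hφO P hcon
  have hφP : φ ∈ P.toValuationSubring := (mem_iff_ord P φ).2 (Or.inr (hcon P rfl))
  have hcφP : c • φ ∈ P.toValuationSubring := by
    rw [Algebra.smul_def]
    exact mul_mem (Ev_algebraMap_mem P c) hφP
  have hfP : algebraMap K F t + c • φ ∈ P.toValuationSubring :=
    add_mem (Ev_algebraMap_mem P t) hcφP
  have hevf : ev P (algebraMap K F t + c • φ) = t + c * ev P φ := by
    rw [ev_add P (Ev_algebraMap_mem P t) hcφP, ev_algebraMap, Algebra.smul_def,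
      ev_mul P (Ev_algebraMap_mem P c) hφP, ev_algebraMap]
  have hord : 0 < P.ord (algebraMap K F t + c • φ) := by
    have h1 : 0 ≤ P.ord (algebraMap K F t + c • φ) := Fermat.Agent.S24.ord_nonneg_of_mem P hfP
    omega
  have h0 := ev_eq_zero_of_ord_pos P hord
  rw [hevf] at h0
  have ht : t = -(c * ev P φ) := eq_neg_of_add_eq_zero_left h0
  have h1 : R.redA t = 0 := by
    rw [ht, R.redA_neg, R.redA_mul hc hev, hc', zero_mul, neg_zero]
  rw [htred] at h1
  exact one_ne_zero h1

/-- the subgroup `1 + c A` of `Kˣ` (`c` small). -/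
def Eval_U (R : RedData K F k Fb) (c : K) (hc : c ∈ R.A) (hc' : R.redA c = 0) : Subgroup Kˣ where
  carrier := {u | ∃ a ∈ R.A, (u : K) = 1 + c * a}
  one_mem' := ⟨0, R.A.zero_mem, by simp⟩
  mul_mem' := by
    rintro u w ⟨a, ha, hu⟩ ⟨b, hb, hw⟩
    refine ⟨a + b + c * a * b, add_mem (add_mem ha hb) (mul_mem (mul_mem hc ha) hb), ?_⟩
    rw [Units.val_mul, hu, hw]
    ring
  inv_mem' := by
    rintro u ⟨a, ha, hu⟩
    have h1 : R.redA (u : K) = 1 := by
      rw [hu, R.redA_add R.A.one_mem (mul_mem hc ha), R.redA_one, R.redA_mul hc ha, hc', zero_mul,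
        add_zero]
    have h2 : ((u : K))⁻¹ ∈ R.A := (R.redA_ne_zero_iff.1 (by rw [h1]; exact one_ne_zero)).2.2
    refine ⟨-a * (u : K)⁻¹, mul_mem (neg_mem ha) h2, ?_⟩
    rw [Units.val_inv_eq_inv_val]
    have hu0 : (u : K) ≠ 0 := u.ne_zero
    field_simp
    rw [hu]
    ring

/-- **(E3)** the value of a chart function on a divisor of degree `0` supported away from the poles of `x̄` is `≡ 1 mod c`.
PROOF. `U := {u : Kˣ | ∃ a ∈ A, (u : K) = 1 + c * a}` is a subgroup of `Kˣ` (`c` small: `1 + c a` is a unit of `A`; `(1 + c a)⁻¹ = 1 + c * (- a (1 + c a)⁻¹)`).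
For `P` in the support of `E` : no pole of `x`, hence of `φ`, in the disc of `r P` (`hx.pole`, `hsupp`), so `b := ev P φ ∈ A`, `ev P f = t + c b ≠ 0` (its reduction is `1`), `evU P f = t * (1 + c (b / t))`.
`evD f E = ∏ (evU P f)^(E P) = t^(deg E) * ∏ (1 + c b_P / t)^(E P)` (`evD`, `Finsupp.prod`, `mul_zpow`, `Finset.prod_mul_distrib`, `RED.degree_eq_sum`), `deg E = 0`, and the second product lies in `U`
(`Subgroup.prod_mem`, `Subgroup.zpow_mem`). -/
theorem IsChart.evD_eq (hr : IsRedMap R r) {x : F} (hx : GoodCoord R r x) {c : K} (hc : c ∈ R.A)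
    (hc' : R.redA c = 0) {f : F} (hf : IsChart R x c f) {E : Divisor K F}
    (hE : Divisor.degree E = 0) (hsupp : ∀ P, E P ≠ 0 → 0 ≤ (r P).ord (R.red x)) :
    ∃ a ∈ R.A, ((evD f E : Kˣ) : K) = 1 + c * a := by
  obtain ⟨t, φ, a, htA, ht1, hφO, hφL, rfl⟩ := hf
  have ht0 : R.redA t ≠ 0 := by rw [ht1]; exact one_ne_zero
  obtain ⟨htne, -, htinv⟩ := R.redA_ne_zero_iff.1 ht0
  have key : ∀ P, E P ≠ 0 → ∃ u ∈ Eval_U R c hc hc',
      evU P (algebraMap K F t + c • φ) = Units.mk0 t htne * u := by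
    intro P hP
    have hreg : ∀ P', r P' = r P → 0 ≤ P'.ord φ := by
      intro P' hP'
      by_contra hneg
      have hneg' : P'.ord φ < 0 := not_le.1 hneg
      have hφ0 : φ ≠ 0 := by
        rintro rfl
        simp at hneg'
      have h1 := (mem_riemannRochSpace_iff.1 hφL P').resolve_left hφ0
      rw [Finsupp.smul_apply, poleDiv_apply] at h1
      have h2 : P'.ord x < 0 := by
        by_contra h3
        rw [max_eq_right (by omega), smul_zero] at h1
        omega
      have h3 := hx.pole P' h2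
      rw [hP'] at h3
      have := hsupp P hP
      omega
    have hb := ev_mem_A hr hφO P hreg
    have hφP : φ ∈ P.toValuationSubring := (mem_iff_ord P φ).2 (Or.inr (hreg P rfl))
    have hev : ev P (algebraMap K F t + c • φ) = t + c * ev P φ := by
      rw [Algebra.smul_def, ev_add P (Ev_algebraMap_mem P t) (mul_mem (Ev_algebraMap_mem P c) hφP),
        ev_algebraMap, ev_mul P (Ev_algebraMap_mem P c) hφP, ev_algebraMap]
    have hne : ev P (algebraMap K F t + c • φ) ≠ 0 := by
      rw [hev]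
      intro h0
      have h4 : R.redA (t + c * ev P φ) = 1 := by
        rw [R.redA_add htA (mul_mem hc hb), ht1, R.redA_mul hc hb, hc', zero_mul, add_zero]
      rw [h0, R.redA_zero] at h4
      exact zero_ne_one h4
    have hfac : t + c * ev P φ = t * (1 + c * (ev P φ * t⁻¹)) := by
      field_simp
    have hune : 1 + c * (ev P φ * t⁻¹) ≠ 0 := by
      intro h0
      apply hne
      rw [hev, hfac, h0, mul_zero]
    refine ⟨Units.mk0 _ hune, ⟨ev P φ * t⁻¹, mul_mem hb htinv, rfl⟩, ?_⟩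
    apply Units.ext
    rw [Ev_evU_val_of_ne P hne, hev, Units.val_mul, Units.val_mk0, Units.val_mk0, hfac]
  choose! u hu hue using key
  have h1 : ∏ P ∈ E.support, (Units.mk0 t htne) ^ E P = 1 := by
    have h5 := evD_algebraMap_of_degree_eq_zero (F := F) (Units.mk0 t htne) hE
    unfold evD Finsupp.prod at h5
    simpa only [evU_algebraMap] using h5
  have h2 : evD (algebraMap K F t + c • φ) E = ∏ P ∈ E.support, u P ^ E P := by
    unfold evD Finsupp.prod
    rw [← one_mul (∏ P ∈ E.support, u P ^ E P), ← h1, ← Finset.prod_mul_distrib]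
    refine Finset.prod_congr rfl fun P hP => ?_
    beta_reduce
    rw [hue P (Finsupp.mem_support_iff.1 hP), mul_zpow]
  have h3 : evD (algebraMap K F t + c • φ) E ∈ Eval_U R c hc hc' := by
    rw [h2]
    exact Subgroup.prod_mem _ fun P hP =>
      Subgroup.zpow_mem _ (hu P (Finsupp.mem_support_iff.1 hP)) _
  exact h3

/-- **(E5)** orthogonality.
PROOF. `D P ≠ 0 → P.ord f ≠ 0` (`IsRep.ord_eq`, `p ≠ 0`) `→ (r P).ord x̄ < 0` (`IsChart.ord_red_neg`); `E P ≠ 0 → (r P).ord x̄⁻¹ < 0`, i.e. `0 < (r P).ord x̄` (`R.red_inv`, `Place.ord_inv`, `hx.inv`).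
So `DisjD D E`; `weil_eq` : `weil p X Y = evD f E / evD g D`; `IsChart.evD_eq` twice (`IsRep.degree_eq_zero`): `evD f E = 1 + c a`, `evD g D = 1 + c a'`; the quotient is `1 + c a''`, `a'' = (a - a') / (1 + c a') ∈ A`.
`weil_pow` and `eq_one_of_pow_eq_one R.A hp` (then `Units.ext`). -/
theorem weil_eq_one_of_charts (hr : IsRedMap R r) {x : F} (hx : GoodCoord R r x) {p : ℕ}
    (hp : p.Prime) {X Y : Pic0 K F} {D E : Divisor K F} {f g : F} (hX : IsRep p X D f)
    (hY : IsRep p Y E g) {c : K} (hc : c ∈ R.A) (hc' : R.redA c = 0) (hf : IsChart R x c f)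
    (hg : IsChart R x⁻¹ c g) (hdeep : ¬ ∃ a ∈ R.A, (p : K) = c ^ (p - 1) * a) :
    weil p X Y = 1 := by
  have hp0 : (p : ℤ) ≠ 0 := by exact_mod_cast hp.ne_zero
  have hD : ∀ P, D P ≠ 0 → (r P).ord (R.red x) < 0 := by
    intro P hP
    exact hf.ord_red_neg hr hx hc hc' (by rw [hX.ord_eq P]; exact mul_ne_zero hp0 hP)
  have hE : ∀ P, E P ≠ 0 → 0 < (r P).ord (R.red x) := by
    intro P hP
    have h1 := hg.ord_red_neg hr hx.inv hc hc' (P := P)
      (by rw [hY.ord_eq P]; exact mul_ne_zero hp0 hP)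
    rw [R.red_inv, Place.ord_inv] at h1
    omega
  have hdisj : DisjD D E := by
    intro P
    by_contra hcon
    push Not at hcon
    have h1 := hD P hcon.1
    have h2 := hE P hcon.2
    omega
  obtain ⟨a, ha, hfa⟩ := hf.evD_eq hr hx hc hc' hY.degree_eq_zero (fun P hP => (hE P hP).le)
  obtain ⟨a', ha', hga⟩ := hg.evD_eq hr hx.inv hc hc' hX.degree_eq_zero (fun P hP => by
    rw [R.red_inv, Place.ord_inv]
    have := hD P hP
    omega)
  apply Units.ext
  rw [Units.val_one]
  refine eq_one_of_pow_eq_one R.A hp hc (z := ((weil p X Y : Kˣ) : K)) ?_ ?_ hdeep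
  · rw [← Units.val_pow_eq_pow_val, weil_pow, Units.val_one]
  · rw [weil_eq hX hY hdisj, Units.val_div_eq_div_val, hfa, hga]
    have hca : c * a' ∈ R.A := R.A.mul_mem _ _ hc ha'
    have hred : R.redA (1 + c * a') ≠ 0 := by
      rw [R.redA_add R.A.one_mem hca, R.redA_mul hc ha', hc', zero_mul, add_zero, R.redA_one]
      exact one_ne_zero
    obtain ⟨hne, -, hu⟩ := R.redA_ne_zero_iff.1 hred
    refine ⟨(a - a') * (1 + c * a')⁻¹, R.A.mul_mem _ _ (R.A.sub_mem ha ha') hu, ?_⟩
    field_simp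
    ring

end Fermat.Agent.S33.Depth
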