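import Fermat.Agent.S33.Depth.Defs

/-!
# S33 / Depth / Optimal  (leaf D2) : existence of an optimal pair

This is LITERALLY the first half of the proof of `DR.Abs.exists_mem_L_of_glued_one` (`DR/Abs/Lifting.lean`, from `set L₁ := ...` to
`have hsub : y₁ - y₂ = (s * c) • ξ₀`), which never uses `m`.  RECIPE: copy it.  `L₁ = L(a X_∞ + D)`, `L₂ = L(a X_0 + D)`,
`M₁ = G(a,0)`, `M₂ = G(0,a)` (`C.glued a 0`, `C.glued 0 a`); `L₁ ⊓ L₂ = ⊥` by `C.noSec` (`mem_L_bipole_inf`);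
`dim (L₁ ⊔ L₂) = dim M₁ + dim M₂ = dim (M₁ ⊔ M₂) + 1`; `IsCartesian.exists_not_mem` gives `ξ₀ ∈ (L₁ ⊔ L₂) ∩ O` with `red ξ₀ ∉ M₁ ⊔ M₂`;
`ξ₀ = z₁ - z₂`, not both integral; `exists_scale_pair` : `c` small; `red (c z₁) = red (c z₂) = t • 1`, `t ≠ 0` (`IsNodal.inf_eq`); `s` a lift of
`t⁻¹`; `yᵢ = s • c • zᵢ`, `γ = s * c`.  `IsSmall T γ` : `γ ∈ A`, and `redA γ = redA s * redA c = 0` (`T.redA_ne_zero_iff` for `c`; use
`(T.R i₀).redA_mul` through `T.redA_eq`).  `mem_aa` is `h6` of that proof (`C.glued a a`).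
-/

set_option autoImplicit false

namespace Fermat.Agent.S33.Depth

open AlgebraicCurve Fermat.Agent.Lib.RR Fermat.Agent.GAL.RED Fermat.Agent.DR.Abs

variable {K F k : Type*} [Field K] [Field F] [Algebra K F] [Field k] {ι : Type*}
  {Fb : ι → Type*} [∀ i, Field (Fb i)] [∀ i, Algebra k (Fb i)] {E : Type*}
  [IsFF K F] [IsAlgClosed K] [∀ i, IsFF k (Fb i)] [IsAlgClosed k] [Fintype ι] [Fintype E]

/-- **(D2)** existence of an optimal pair. -/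
theorem exists_opt {T : MultiRed K F k Fb} {x : F} {N : NodeData k Fb E} {a₀ p : ℕ} {f : F}
    {D : Divisor K F} {a : ℕ} (C : Ctx T x N a₀ p f D a) :
    ∃ (y₁ y₂ ξ₀ : F) (γ : K), Opt T x N C.nodal.adapted D a y₁ y₂ ξ₀ γ := by
  classical
  have h := C.nodal
  have hcon := C.noSec
  have hM := C.glued
  have ha0 := C.ha₀
  have ha := C.ha
  have hne : Nonempty ι := h.cart.nonempty
  obtain ⟨i₀⟩ := id hne
  set L₁ := riemannRochSpace (bipole K x a 0 + D) with hL₁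
  set L₂ := riemannRochSpace (bipole K x 0 a + D) with hL₂
  have hM₁ : T.redSub L₁ = gluedSub N (T.red x) h.adapted 1 a 0 := hM a 0 (by omega)
  have hM₂ : T.redSub L₂ = gluedSub N (T.red x) h.adapted 1 0 a := hM 0 a (by omega)
  set M₁ := gluedSub N (T.red x) h.adapted 1 a 0 with hM₁def
  set M₂ := gluedSub N (T.red x) h.adapted 1 0 a with hM₂def
  -- `L₁ ⊓ L₂ = ⊥`
  have hdisj : L₁ ⊓ L₂ = ⊥ := by
    rw [eq_bot_iff]
    rintro u ⟨hu1, hu2⟩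
    have h3 := mem_L_bipole_inf x D hu1 hu2
    have h4 : bipole K x (min a 0) (min 0 a) = 0 := by
      simp [bipole]
    rw [h4, zero_add] at h3
    by_contra hu0
    exact hcon u hu0 h3
  have hdimW : Module.finrank K ↥(L₁ ⊔ L₂) = Module.finrank K L₁ + Module.finrank K L₂ := by
    have h3 := Submodule.finrank_sup_add_finrank_inf_eq L₁ L₂
    rw [hdisj, finrank_bot] at h3
    omega
  have hc1 : Module.finrank k M₁ = Module.finrank K L₁ := by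
    rw [← hM₁]; exact h.cart L₁ inferInstance
  have hc2 : Module.finrank k M₂ = Module.finrank K L₂ := by
    rw [← hM₂]; exact h.cart L₂ inferInstance
  have hfin1 : Module.Finite k M₁ := by
    rw [← hM₁]; exact T.finite_redSub L₁
  have hfin2 : Module.Finite k M₂ := by
    rw [← hM₂]; exact T.finite_redSub L₂
  -- `1 ∈ M₁ ⊓ M₂`
  have hone00 : (1 : ∀ i, Fb i) ∈ gluedSub N (T.red x) h.adapted 1 0 0 := by
    rw [mem_gluedSub_zero_iff]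
    exact ⟨fun _ => 1, fun i => by simp, fun e => by simp⟩
  have hone1 : (1 : ∀ i, Fb i) ∈ M₁ :=
    gluedSub_mono N (T.red x) h.adapted 1 (Nat.zero_le a) le_rfl hone00
  have hone2 : (1 : ∀ i, Fb i) ∈ M₂ :=
    gluedSub_mono N (T.red x) h.adapted 1 le_rfl (Nat.zero_le a) hone00
  have hone_ne : (1 : ∀ i, Fb i) ≠ 0 := fun h0 => one_ne_zero (congrFun h0 i₀)
  have hinf : Module.finrank k ↥(M₁ ⊓ M₂) = 1 := by
    have h3 : M₁ ⊓ M₂ = Submodule.span k {(1 : ∀ i, Fb i)} := by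
      apply le_antisymm
      · rintro z ⟨hz1, hz2⟩
        obtain ⟨t, rfl⟩ := h.inf_eq a a hz1 hz2
        exact Submodule.smul_mem _ _ (Submodule.mem_span_singleton_self _)
      · rw [Submodule.span_singleton_le_iff_mem]
        exact ⟨hone1, hone2⟩
    rw [h3, finrank_span_singleton hone_ne]
  have hU : M₁ ⊔ M₂ ≤ T.redSub (L₁ ⊔ L₂) := by
    refine sup_le ?_ ?_
    · rw [← hM₁]; exact T.redSub_mono le_sup_left
    · rw [← hM₂]; exact T.redSub_mono le_sup_right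
  have hlt : Module.finrank k ↥(M₁ ⊔ M₂) < Module.finrank K ↥(L₁ ⊔ L₂) := by
    have h3 := Submodule.finrank_sup_add_finrank_inf_eq M₁ M₂
    omega
  obtain ⟨ξ₀, hξW, hξO, hξU⟩ := h.cart.exists_not_mem (L₁ ⊔ L₂) _ hU hlt
  obtain ⟨z₁, hz₁, w, hw, hξ⟩ := Submodule.mem_sup.1 hξW
  obtain ⟨z₂, hz₂, hξ'⟩ : ∃ z₂ ∈ L₂, ξ₀ = z₁ - z₂ :=
    ⟨-w, L₂.neg_mem hw, by rw [sub_neg_eq_add, hξ]⟩
  have hnot : ¬ (z₁ ∈ T.O ∧ z₂ ∈ T.O) := by
    rintro ⟨h1, h2⟩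
    apply hξU
    rw [hξ', T.red_sub h1 h2]
    refine Submodule.sub_mem _ (Submodule.mem_sup_left ?_) (Submodule.mem_sup_right ?_)
    · rw [← hM₁]; exact ⟨z₁, hz₁, h1, rfl⟩
    · rw [← hM₂]; exact ⟨z₂, hz₂, h2, rfl⟩
  obtain ⟨c, hc0, hcA, hcinv, hy₁O, hy₂O, hnz⟩ := h.cart.exists_scale_pair hnot
  have heq : T.red (c • z₁) = T.red (c • z₂) := by
    rw [← sub_eq_zero, ← T.red_sub hy₁O hy₂O, ← smul_sub, ← hξ']
    exact T.red_smul_of_small hcA hcinv hξO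
  have hmem1 : T.red (c • z₁) ∈ M₁ := by
    rw [← hM₁]; exact ⟨c • z₁, L₁.smul_mem c hz₁, hy₁O, rfl⟩
  have hmem2 : T.red (c • z₁) ∈ M₂ := by
    rw [heq, ← hM₂]; exact ⟨c • z₂, L₂.smul_mem c hz₂, hy₂O, rfl⟩
  obtain ⟨t, ht⟩ := h.inf_eq a a hmem1 hmem2
  have ht0 : t ≠ 0 := by
    rintro rfl
    rw [zero_smul] at ht
    rcases hnz with h3 | h3
    · exact h3 ht
    · exact h3 (heq ▸ ht)
  obtain ⟨s, hsA, hs⟩ := T.redA_surj t⁻¹
  have hs0 : s ≠ 0 := by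
    have h3 : T.redA s ≠ 0 := by rw [hs]; exact inv_ne_zero ht0
    exact (T.redA_ne_zero_iff.1 h3).1
  set y₁ := s • c • z₁ with hy₁
  set y₂ := s • c • z₂ with hy₂
  have hy₁O' : y₁ ∈ T.O := T.smul_mem hsA hy₁O
  have hy₂O' : y₂ ∈ T.O := T.smul_mem hsA hy₂O
  have hry₁ : T.red y₁ = 1 := by
    rw [hy₁, T.red_smul hsA hy₁O, hs, ht, smul_smul, inv_mul_cancel₀ ht0, one_smul]
  have hry₂ : T.red y₂ = 1 := by
    rw [hy₂, T.red_smul hsA hy₂O, hs, ← heq, ht, smul_smul, inv_mul_cancel₀ ht0, one_smul]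
  have hy₁L : y₁ ∈ L₁ := L₁.smul_mem s (L₁.smul_mem c hz₁)
  have hy₂L : y₂ ∈ L₂ := L₂.smul_mem s (L₂.smul_mem c hz₂)
  have hsub : y₁ - y₂ = (s * c) • ξ₀ := by
    rw [hy₁, hy₂, hξ', smul_sub, mul_smul, mul_smul]
  have hsc0 : s * c ≠ 0 := mul_ne_zero hs0 hc0
  have h6 : T.red ξ₀ ∈ gluedSub N (T.red x) h.adapted 1 a a := by
    rw [← hM a a (by omega)]
    refine ⟨ξ₀, ?_, hξO, rfl⟩
    have h7 : L₁ ⊔ L₂ ≤ riemannRochSpace (bipole K x a a + D) := by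
      refine sup_le ?_ ?_
      · exact Lib.RR.L_mono (add_le_add_left (bipole_mono x le_rfl (Nat.zero_le a)) D)
      · exact Lib.RR.L_mono (add_le_add_left (bipole_mono x (Nat.zero_le a) le_rfl) D)
    exact h7 hξW
  have hc_red : T.redA c = 0 := by
    by_contra hne0
    exact hcinv (T.redA_ne_zero_iff.1 hne0).2.2
  have hsmall : IsSmall T (s * c) := by
    refine ⟨T.A.mul_mem _ _ hsA hcA, ?_⟩
    rw [← T.redA_eq i₀, (T.R i₀).redA_mul ((T.mem_A_iff i₀).2 hsA) ((T.mem_A_iff i₀).2 hcA),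
      T.redA_eq i₀ c, hc_red, mul_zero]
  exact ⟨y₁, y₂, ξ₀, s * c, hsc0, hsmall, ⟨hy₁L, hy₂L, hy₁O', hy₂O', hry₁, hry₂⟩, hξO, hsub,
    hξU, h6⟩

end Fermat.Agent.S33.Depth
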