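import Fermat.Agent.S33.Depth.Defs
import Fermat.Agent.S33.Depth.Binom

/-!
# S33 / Depth / Root  (leaves D7a, D7b)

## `mem_gluedSub_of_pow`  (D7a)
`z^p ∈ G(p a, p b) ⟹ z ∈ G(a, b)` in characteristic `p`.
Pole bounds: `z i ^ p ∈ L(p • bipole a b)` (`bipole_smul`) `⟹ z i ∈ L(bipole a b)` (`mem_L_of_pow_mem` in `DR/Abs/Bipole.lean`, or directly:
`ord (z^p) = p ord z`).  Gluing (`δ = 1`): `ev (p₁ e) (z _ ^ p) = ev (p₁ e) (z _) ^ p` (`DR.Abs.ev_pow`; `0 ≤ ord` at the nodes by `BoundedBy.ord₁/ord₂`),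
so `(ev₁)^p = (ev₂)^p`, and `frobenius_inj k p` (or `sub_pow_char`) gives `ev₁ = ev₂`.

## `exists_root`  (D7b)   one valuation ring, `ρ = p / γ^(p-1)` small
`G^p = 1 + γ^p (φ + e)`, `φ, e ∈ O`, `red e = 0`  ⟹  `red φ` is a `p`-th power (of the reduction of an integral element).
PROOF. `G ∈ O` (`G^p ∈ O` and `O` is a valuation ring: if `G ∉ O` then `G⁻¹ ∈ O` is a non unit ... ; or `ValuationSubring` is integrally closed:
`R.O.mem_of_pow_mem`-type lemma, else by `R.O.mem_or_inv_mem`).  `red G ^ p = red (G^p) = 1`, so `(red G - 1)^p = 0` (`sub_pow_char`, `CharP Fb p` from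
`charP_of_injective_algebraMap (algebraMap k Fb).injective p`), `red G = 1`.  `z := G - 1 ∈ O`, `red z = 0`; `w := γ⁻¹ • z`, `z = γ • w`.
`exists_binom_prime R.O.toSubring hp (y := 1) (z := z)` : `G^p = 1 + z^p + p z + p z² r`, `r ∈ O`.  Dividing by `γ^p` (`p γ = ρ γ^p`) :
`(*)  w^p + ρ • (w * (1 + z r)) = φ + e`.
`w ∈ O` : otherwise `w⁻¹ ∈ O`, `red w⁻¹ = 0`; multiply `(*)` by `w⁻¹ ^ p` : `1 + ρ • (w⁻¹^(p-1) (1 + z r)) = (φ + e) w⁻¹^p`; the reduction of the left side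
is `1` (`redA ρ = 0`), that of the right side is `0` (`p ≥ 1`).  Contradiction.
Reduce `(*)` : `red w ^ p + 0 = red φ + 0`.
-/

set_option autoImplicit false

namespace Fermat.Agent.S33.Depth

open AlgebraicCurve Fermat.Agent.Lib.RR Fermat.Agent.GAL.RED Fermat.Agent.DR.Abs

section glued

variable {k : Type*} [Field k] {ι : Type*}
  {Fb : ι → Type*} [∀ i, Field (Fb i)] [∀ i, Algebra k (Fb i)] {E : Type*}
  [∀ i, IsFF k (Fb i)] [IsAlgClosed k]

/-- **(D7a)** -/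
theorem mem_gluedSub_of_pow (N : NodeData k Fb E) (xb : ∀ i, Fb i) (hN : N.Adapted xb) {p : ℕ}
    (hp : p.Prime) [CharP k p] {a b : ℕ} {z : ∀ i, Fb i}
    (hz : z ^ p ∈ gluedSub N xb hN 1 (p * a) (p * b)) : z ∈ gluedSub N xb hN 1 a b := by
  obtain ⟨hb, hg⟩ := hz
  have hzb : BoundedBy k xb a b z := by
    intro i
    have h1 := hb i
    rw [bipole_smul, Pi.pow_apply] at h1
    exact mem_L_of_pow_mem hp.pos h1
  refine ⟨hzb, ?_⟩
  intro e
  have h1 := hg e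
  rw [Pi.pow_apply, Pi.pow_apply, Pi.one_apply, one_mul,
    Fermat.Agent.DR.Abs.ev_pow _ (hzb.ord₁ hN e), Fermat.Agent.DR.Abs.ev_pow _ (hzb.ord₂ hN e)] at h1
  rw [Pi.one_apply, one_mul]
  have : Fact p.Prime := ⟨hp⟩
  exact frobenius_inj k p h1

end glued

section root

variable {K F k Fb : Type*} [Field K] [Field F] [Algebra K F] [Field k] [Field Fb] [Algebra k Fb]

/-- **(D7b)** -/
theorem exists_root (R : RedData K F k Fb) {p : ℕ} (hp : p.Prime) [CharP k p] {γ : K} (hγ0 : γ ≠ 0)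
    (hγ : γ ∈ R.A) (hγ' : R.redA γ = 0) (hρ : (p : K) / γ ^ (p - 1) ∈ R.A)
    (hρ' : R.redA ((p : K) / γ ^ (p - 1)) = 0) {G φ e : F} (hφ : φ ∈ R.O) (he : e ∈ R.O)
    (he' : R.red e = 0) (h : G ^ p = 1 + (γ ^ p) • (φ + e)) :
    ∃ w ∈ R.O, R.red φ = R.red w ^ p := by
  haveI : CharP Fb p := charP_of_injective_algebraMap (algebraMap k Fb).injective p
  haveI : Fact p.Prime := ⟨hp⟩
  obtain ⟨c, hc⟩ : ∃ c, c = algebraMap K F γ := ⟨_, rfl⟩
  obtain ⟨ρ', hρ'def⟩ : ∃ ρ', ρ' = algebraMap K F ((p : K) / γ ^ (p - 1)) := ⟨_, rfl⟩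
  have hc0 : c ≠ 0 := by
    rw [hc]
    exact (map_ne_zero _).2 hγ0
  have hcO : c ∈ R.O := hc ▸ R.algebraMap_mem γ hγ
  have hcr : R.red c = 0 := by rw [hc, R.red_algebraMap hγ, hγ', map_zero]
  have hρO : ρ' ∈ R.O := hρ'def ▸ R.algebraMap_mem _ hρ
  have hρr : R.red ρ' = 0 := by rw [hρ'def, R.red_algebraMap hρ, hρ', map_zero]
  have hρc : ρ' * c ^ (p - 1) = (p : F) := by
    rw [hρ'def, hc, ← map_pow, ← map_mul, div_mul_cancel₀ _ (pow_ne_zero _ hγ0), map_natCast]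
  have hφe : φ + e ∈ R.O := R.O.add_mem _ _ hφ he
  have h' : G ^ p = 1 + c ^ p * (φ + e) := by
    rw [h, Algebra.smul_def, map_pow, hc]
  have hp0 : p ≠ 0 := hp.ne_zero
  -- `G` is integral and reduces to `1`
  have hGp : R.red G ^ p = 1 := by
    rw [← R.red_pow, h', R.red_add (R.O.one_mem) (R.O.mul_mem _ _ (pow_mem hcO p) hφe), R.red_one,
      R.red_mul (pow_mem hcO p) hφe, R.red_pow, hcr, zero_pow hp0, zero_mul, add_zero]
  have hG0 : R.red G ≠ 0 := by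
    intro h0
    rw [h0, zero_pow hp0] at hGp
    exact zero_ne_one hGp
  have hGO : G ∈ R.O := R.mem_of_red_ne_zero hG0
  have hG1 : R.red G = 1 := by
    have h1 : (R.red G - 1) ^ p = 0 := by rw [sub_pow_char, hGp, one_pow, sub_self]
    exact sub_eq_zero.1 (pow_eq_zero_iff hp0 |>.1 h1)
  obtain ⟨w, hw⟩ : ∃ w, w = c⁻¹ * (G - 1) := ⟨_, rfl⟩
  have hG : G = 1 + c * w := by
    rw [hw, ← mul_assoc, mul_inv_cancel₀ hc0, one_mul]
    ring
  have hcw : c * w = G - 1 := by rw [hG]; ring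
  have hcwO : c * w ∈ R.O := by
    rw [hcw]
    exact R.O.sub_mem hGO R.O.one_mem
  obtain ⟨r, hrO, hbin⟩ := exists_binom_prime R.O.toSubring hp (y := 1) (z := c * w)
    R.O.one_mem hcwO
  have hrO' : r ∈ R.O := hrO
  rw [← hG, one_pow, one_pow, mul_one] at hbin
  obtain ⟨q, hq⟩ : ∃ q, p = q + 1 := ⟨p - 1, by have := hp.pos; omega⟩
  have hq1 : p - 1 = q := by omega
  rw [hq1] at hρc
  have hXO : 1 + c * w * r ∈ R.O := R.O.add_mem _ _ R.O.one_mem (R.O.mul_mem _ _ hcwO hrO')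
  have star : w ^ p + ρ' * (w * (1 + c * w * r)) = φ + e := by
    apply mul_left_cancel₀ (pow_ne_zero p hc0)
    generalize (p : F) = Pc at hbin hρc
    rw [hq] at h' hbin ⊢
    linear_combination h' - hbin + (c * w * (1 + c * w * r)) * hρc
  have hwO : w ∈ R.O := by
    by_contra hwn
    have huO : w⁻¹ ∈ R.O := (R.O.mem_or_inv_mem w).resolve_left hwn
    have hur : R.red w⁻¹ = 0 := by rw [R.red_inv, R.red_of_not_mem hwn, inv_zero]
    have hw0 : w ≠ 0 := by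
      rintro rfl
      exact hwn R.O.zero_mem
    have hwu : w * w⁻¹ = 1 := mul_inv_cancel₀ hw0
    have h1 : w ^ p * w⁻¹ ^ p = 1 := by rw [← mul_pow, hwu, one_pow]
    have h2 : w * w⁻¹ ^ p = w⁻¹ ^ q := by
      rw [hq, pow_succ, mul_comm (w⁻¹ ^ q), ← mul_assoc, hwu, one_mul]
    have h3 : 1 + ρ' * (w⁻¹ ^ q * (1 + c * w * r)) = (φ + e) * w⁻¹ ^ p := by
      linear_combination w⁻¹ ^ p * star - h1 - ρ' * (1 + c * w * r) * h2
    have h4 := congrArg R.red h3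
    rw [R.red_add R.O.one_mem (R.O.mul_mem _ _ hρO (R.O.mul_mem _ _ (pow_mem huO q) hXO)),
      R.red_mul hρO (R.O.mul_mem _ _ (pow_mem huO q) hXO), hρr, zero_mul, add_zero, R.red_one,
      R.red_mul hφe (pow_mem huO p), R.red_pow, hur, zero_pow hp0, mul_zero] at h4
    exact one_ne_zero h4
  refine ⟨w, hwO, ?_⟩
  have h4 := congrArg R.red star
  rw [R.red_add (pow_mem hwO p) (R.O.mul_mem _ _ hρO (R.O.mul_mem _ _ hwO hXO)),
    R.red_mul hρO (R.O.mul_mem _ _ hwO hXO), hρr, zero_mul, add_zero, R.red_pow,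
    R.red_add hφ he, he', add_zero] at h4
  exact h4.symm

end root

end Fermat.Agent.S33.Depth
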