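import Fermat.Agent.S33.Depth.Const
import Fermat.Agent.S33.Depth.Root

/-!
# S33 / Depth / Sharp  (leaf D8) : below the top depth, the depth `γ^p` cannot be improved

`ρ = p / γ^(p-1)` small, `π / γ^p` small.  Suppose `InS T p π f` : for every `i`, `f gᵢ^p = 1 + π hᵢ`, `hᵢ ∈ O_i`, `gᵢ ≠ 0`.
`Opt.exists_const` : `y_j^p f = t + γ^p φ_j` (`j = 1, 2`), `redA t = 1`.  Choose `s : K` with `s^p = t` (`IsAlgClosed.exists_pow_nat_eq`), `s ≠ 0`, and put `ε := π / γ^p`.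
Fix `i` and `j`.  `G := y_j / (s gᵢ)`.  Then `G^p = (y_j^p f) / (t (f gᵢ^p)) = (1 + γ^p t⁻¹ φ_j) / (1 + π hᵢ)`.  With `u := (1 + π hᵢ)⁻¹ ∈ O_i` (`1 + π hᵢ` has reduction `1`; `π = ε γ^p` is small),
`G^p = 1 + γ^p • (t⁻¹ φ_j + e)`, `e := (t⁻¹ φ_j) (u - 1) - ε hᵢ u`  (check: `(1 + γ^p a) u = 1 + γ^p a + γ^p a (u - 1) + (u - 1)` and `u - 1 = - π hᵢ u = - γ^p ε hᵢ u`),
`e ∈ O_i`, `red_i e = 0` (`red u = 1`, `redA ε = 0`).  `exists_root (T.R i)` (translate `IsSmall` with `T.mem_A_iff`, `T.redA_eq`) : `red_i (t⁻¹ φ_j) = red_i φ_j` is a `p`-th power `(b_j i)^p`.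
So `T.red φ_j = b_j ^ p` (`funext`).  `red φ₁ ∈ G(p a, 0)`, `red φ₂ ∈ G(0, p a)` (`IsPreNodal.redSub_eq`), so by `mem_gluedSub_of_pow` (`p * 0 = 0`) `b₁ ∈ G(a,0)`, `b₂ ∈ G(0,a)`.
As `redA ρ = 0` : `red ξ₀ ^ p = b₁^p - b₂^p = (b₁ - b₂)^p` (`sub_pow_char` in each `Fb i`, `CharP (Fb i) p`), hence `red ξ₀ = b₁ - b₂` (`frobenius_inj`, componentwise)
`∈ G(a,0) ⊔ G(0,a)` : contradiction with `O.not_cob`.
-/

set_option autoImplicit false

namespace Fermat.Agent.S33.Depth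

open AlgebraicCurve Fermat.Agent.Lib.RR Fermat.Agent.GAL.RED Fermat.Agent.DR.Abs

section loc

variable {K F k Fb : Type*} [Field K] [Field F] [Algebra K F] [Field k] [Field Fb] [Algebra k Fb]

/-- (aux. for `Opt.sharp`) the local computation at one valuation. -/
theorem Sharp_local [IsAlgClosed K] (R : RedData K F k Fb) {p : ℕ} (hp : p.Prime) [CharP k p]
    {γ : K} (hγ0 : γ ≠ 0) (hγ : γ ∈ R.A) (hγ' : R.redA γ = 0) (hρ : (p : K) / γ ^ (p - 1) ∈ R.A)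
    (hρ' : R.redA ((p : K) / γ ^ (p - 1)) = 0) {π : K} (hπ : π / γ ^ p ∈ R.A)
    (hπ' : R.redA (π / γ ^ p) = 0) {t : K} (ht1 : R.redA t = 1) {f g h y φ : F}
    (hg : g ≠ 0) (hh : h ∈ R.O) (hfg : f * g ^ p = 1 + algebraMap K F π * h) (hφ : φ ∈ R.O)
    (hy : y ^ p * f = algebraMap K F t + (γ ^ p) • φ) :
    ∃ w ∈ R.O, R.red φ = R.red w ^ p := by
  have ht1' : R.redA t ≠ 0 := by rw [ht1]; exact one_ne_zero
  obtain ⟨ht0, htA, htiA⟩ := R.redA_ne_zero_iff.1 ht1'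
  obtain ⟨s, hs⟩ := IsAlgClosed.exists_pow_nat_eq t hp.pos
  have hs0 : s ≠ 0 := by
    rintro rfl
    rw [zero_pow hp.ne_zero] at hs
    exact ht0 hs.symm
  have hγp0 : γ ^ p ≠ 0 := pow_ne_zero _ hγ0
  set ε : K := π / γ ^ p with hε
  have hπε : π = ε * γ ^ p := by rw [hε, div_mul_cancel₀ _ hγp0]
  have hγpA : γ ^ p ∈ R.A := R.A.pow_mem hγ p
  have hπA : π ∈ R.A := by rw [hπε]; exact R.A.mul_mem _ _ hπ hγpA
  have hπ0 : R.redA π = 0 := by rw [hπε, R.redA_mul hπ hγpA, hπ', zero_mul]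
  have hπO : algebraMap K F π ∈ R.O := R.algebraMap_mem _ hπA
  have hεO : algebraMap K F ε ∈ R.O := R.algebraMap_mem _ hπ
  have hπred : R.red (algebraMap K F π) = 0 := by rw [R.red_algebraMap', hπ0, map_zero]
  have hεred : R.red (algebraMap K F ε) = 0 := by rw [R.red_algebraMap', hπ', map_zero]
  have hone : R.red (1 : F) = 1 := by
    rw [R.red_of_mem R.O.one_mem]; exact map_one _
  -- `U = 1 + π h`
  have hUred : R.red (1 + algebraMap K F π * h) = 1 := by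
    rw [R.red_add R.O.one_mem (R.O.mul_mem _ _ hπO hh), R.red_mul hπO hh, hπred, zero_mul,
      add_zero, hone]
  have hUred' : R.red (1 + algebraMap K F π * h) ≠ 0 := by rw [hUred]; exact one_ne_zero
  have hU0 : (1 + algebraMap K F π * h) ≠ 0 := R.ne_zero_of_red_ne_zero hUred'
  set u : F := (1 + algebraMap K F π * h)⁻¹ with hu
  have huO : u ∈ R.O := R.inv_mem_of_red_ne_zero hUred'
  have hured : R.red u = 1 := by rw [hu, R.red_inv, hUred, inv_one]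
  have huU : u * (1 + algebraMap K F π * h) = 1 := inv_mul_cancel₀ hU0
  have hf0 : f ≠ 0 := by
    rintro rfl
    rw [zero_mul] at hfg
    exact hU0 hfg.symm
  -- `a' = t⁻¹ φ`
  have ha'O : t⁻¹ • φ ∈ R.O := R.smul_mem htiA hφ
  have ha'red : R.red (t⁻¹ • φ) = R.red φ := by
    rw [R.red_smul htiA hφ, R.redA_inv, ht1, inv_one, one_smul]
  -- `e`
  have heO : (t⁻¹ • φ) * (u - 1) - algebraMap K F ε * h * u ∈ R.O :=
    R.O.sub_mem (R.O.mul_mem _ _ ha'O (R.O.sub_mem huO R.O.one_mem))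
      (R.O.mul_mem _ _ (R.O.mul_mem _ _ hεO hh) huO)
  have hered : R.red ((t⁻¹ • φ) * (u - 1) - algebraMap K F ε * h * u) = 0 := by
    rw [R.red_sub (R.O.mul_mem _ _ ha'O (R.O.sub_mem huO R.O.one_mem))
      (R.O.mul_mem _ _ (R.O.mul_mem _ _ hεO hh) huO),
      R.red_mul ha'O (R.O.sub_mem huO R.O.one_mem), R.red_sub huO R.O.one_mem, hured, hone,
      sub_self, mul_zero, R.red_mul (R.O.mul_mem _ _ hεO hh) huO, R.red_mul hεO hh, hεred,
      zero_mul, zero_mul, sub_zero]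
  have htF : algebraMap K F t ≠ 0 := by simpa using ht0
  have hsF : algebraMap K F s ≠ 0 := by simpa using hs0
  have hG : (y / (algebraMap K F s * g)) ^ p =
      1 + (γ ^ p) • (t⁻¹ • φ + ((t⁻¹ • φ) * (u - 1) - algebraMap K F ε * h * u)) := by
    have h1 : (y / (algebraMap K F s * g)) ^ p =
        (y ^ p * f) * (algebraMap K F t)⁻¹ * u := by
      rw [hu, ← hfg, div_pow, mul_pow, ← map_pow, hs]
      have hgp : g ^ p ≠ 0 := pow_ne_zero _ hg
      field_simp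
    rw [h1, hy]
    have h2 : algebraMap K F π = algebraMap K F ε * algebraMap K F (γ ^ p) := by
      rw [← map_mul, ← hπε]
    have h3 : u = 1 - algebraMap K F ε * algebraMap K F (γ ^ p) * h * u := by
      rw [h2] at huU
      linear_combination huU
    simp only [Algebra.smul_def, map_inv₀]
    have h4 : (algebraMap K F t + algebraMap K F (γ ^ p) * φ) * (algebraMap K F t)⁻¹ =
        1 + algebraMap K F (γ ^ p) * ((algebraMap K F t)⁻¹ * φ) := by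
      field_simp
    rw [h4]
    linear_combination (1 : F) * h3
  obtain ⟨w, hwO, hw⟩ := exists_root R hp hγ0 hγ hγ' hρ hρ' ha'O heO hered hG
  exact ⟨w, hwO, by rw [← ha'red, hw]⟩

end loc

variable {K F k : Type*} [Field K] [Field F] [Algebra K F] [Field k] {ι : Type*}
  {Fb : ι → Type*} [∀ i, Field (Fb i)] [∀ i, Algebra k (Fb i)] {E : Type*}
  [IsFF K F] [IsAlgClosed K] [∀ i, IsFF k (Fb i)] [IsAlgClosed k] [Fintype ι] [Fintype E]

/-- **(D8)** -/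
theorem Opt.sharp {T : MultiRed K F k Fb} {x : F} {N : NodeData k Fb E} {a₀ p : ℕ} {f : F}
    {D : Divisor K F} {a : ℕ} (C : Ctx T x N a₀ p f D a) {y₁ y₂ ξ₀ : F} {γ : K}
    (O : Opt T x N C.nodal.adapted D a y₁ y₂ ξ₀ γ) (hp : p.Prime) [CharP k p]
    (hρ : IsSmall T ((p : K) / γ ^ (p - 1))) {π : K} (hπ : IsSmall T (π / γ ^ p)) :
    ¬ InS T p π f := by
  intro hS
  obtain ⟨t, φ₁, φ₂, htA, ht1, hφ₁O, hφ₂O, hφ₁L, hφ₂L, e₁, e₂, hsub⟩ := O.exists_const C hp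
  have key : ∀ (y φ : F), φ ∈ T.O → y ^ p * f = algebraMap K F t + (γ ^ p) • φ →
      ∃ b : ∀ i, Fb i, T.red φ = b ^ p := by
    intro y φ hφ hy
    have h1 : ∀ i, ∃ b : Fb i, (T.R i).red φ = b ^ p := by
      intro i
      obtain ⟨g, hg, h, hh, hfg⟩ := hS i
      obtain ⟨w, -, hw⟩ := Sharp_local (T.R i) hp O.γ_ne ((T.mem_A_iff i).2 O.γ_small.1)
        (by rw [T.redA_eq i]; exact O.γ_small.2) ((T.mem_A_iff i).2 hρ.1)
        (by rw [T.redA_eq i]; exact hρ.2) ((T.mem_A_iff i).2 hπ.1)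
        (by rw [T.redA_eq i]; exact hπ.2) (by rw [T.redA_eq i]; exact ht1) hg hh hfg (hφ i) hy
      exact ⟨_, hw⟩
    choose b hb using h1
    exact ⟨b, funext hb⟩
  obtain ⟨b₁, hb₁⟩ := key y₁ φ₁ hφ₁O e₁
  obtain ⟨b₂, hb₂⟩ := key y₂ φ₂ hφ₂O e₂
  have hpa : a₀ ≤ p * a := le_trans C.ha₀ (Nat.le_mul_of_pos_left a hp.pos)
  have hm₁ : b₁ ∈ gluedSub N (T.red x) C.nodal.adapted 1 a 0 := by
    apply mem_gluedSub_of_pow N (T.red x) C.nodal.adapted hp
    rw [← hb₁, mul_zero, ← C.nodal.toIsPreNodal.redSub_eq (a := p * a) (b := 0) (by omega)]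
    exact ⟨φ₁, hφ₁L, hφ₁O, rfl⟩
  have hm₂ : b₂ ∈ gluedSub N (T.red x) C.nodal.adapted 1 0 a := by
    apply mem_gluedSub_of_pow N (T.red x) C.nodal.adapted hp
    rw [← hb₂, mul_zero, ← C.nodal.toIsPreNodal.redSub_eq (a := 0) (b := p * a) (by omega)]
    exact ⟨φ₂, hφ₂L, hφ₂O, rfl⟩
  rw [hρ.2, zero_smul, add_zero, hb₁, hb₂] at hsub
  have hξ : T.red ξ₀ = b₁ - b₂ := by
    funext i
    have : Fact p.Prime := ⟨hp⟩
    have : CharP (Fb i) p := charP_of_injective_algebraMap (algebraMap k (Fb i)).injective p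
    have h1 := congrFun hsub i
    simp only [Pi.sub_apply, Pi.pow_apply] at h1
    rw [← sub_pow_char] at h1
    exact (frobenius_inj (Fb i) p h1).symm
  apply O.not_cob
  rw [hξ]
  exact Submodule.sub_mem_sup hm₁ hm₂

end Fermat.Agent.S33.Depth
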