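import Fermat.Agent.S33.Depth.Structure
import Fermat.Agent.S33.Depth.Optimal
import Fermat.Agent.S33.Depth.Sharp

/-!
# S33 / Depth / Main : the abstract depth theorem

`T` a nodal reduction of `F / K`, residue characteristic `p`.  Every `f` with `p ∣ div f`, `T.red f = 1`, which is not a `p`-th power has a DEPTH `γ` :
* `0 < v(γ) ≤ v(p)/(p-1)`;
* two charts : `y₁^p f = t₁ + γ^p φ₁` with poles only at the poles of `x`, `y₂^p f = t₂ + γ^p φ₂` with poles only at the zeros of `x`, `φᵢ` integral;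
* sharpness : if `v(γ) < v(p)/(p-1)` then `f` is not congruent to `1` modulo anything deeper than `γ^p`, up to `p`-th powers.
-/

set_option autoImplicit false

namespace Fermat.Agent.S33.Depth

open AlgebraicCurve Fermat.Agent.Lib.RR Fermat.Agent.GAL.RED Fermat.Agent.DR.Abs

variable {K F k : Type*} [Field K] [Field F] [Algebra K F] [Field k] {ι : Type*}
  {Fb : ι → Type*} [∀ i, Field (Fb i)] [∀ i, Algebra k (Fb i)] {E : Type*}

/-- `γ` is a depth of `f`. -/
structure IsDepth [HasPrincipalDivisors K F] (T : MultiRed K F k Fb) (x : F) (p : ℕ) (f : F) (γ : K) :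
    Prop where
  ne : γ ≠ 0
  small : IsSmall T γ
  le : (p : K) / γ ^ (p - 1) ∈ T.A
  chart₁ : ∃ (y : F) (t : K) (φ : F) (a : ℕ), y ≠ 0 ∧ t ∈ T.A ∧ T.redA t = 1 ∧ φ ∈ T.O ∧
    φ ∈ riemannRochSpace (bipole K x a 0) ∧ y ^ p * f = algebraMap K F t + (γ ^ p) • φ
  chart₂ : ∃ (y : F) (t : K) (φ : F) (a : ℕ), y ≠ 0 ∧ t ∈ T.A ∧ T.redA t = 1 ∧ φ ∈ T.O ∧
    φ ∈ riemannRochSpace (bipole K x 0 a) ∧ y ^ p * f = algebraMap K F t + (γ ^ p) • φ
  sharp : IsSmall T ((p : K) / γ ^ (p - 1)) → ∀ π : K, IsSmall T (π / γ ^ p) → ¬ InS T p π f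

variable [IsFF K F] [IsAlgClosed K] [∀ i, IsFF k (Fb i)] [IsAlgClosed k] [Fintype ι] [Fintype E]

/-- **(D9a)** `f ≡ 1 mod γ^p` up to a `p`-th power.
PROOF. `chart₁` : `y^p f = t + γ^p φ`; `s^p = t⁻¹` (`IsAlgClosed.exists_pow_nat_eq`; `t ≠ 0` as `redA t = 1`, `T.redA_ne_zero_iff`); `g := s • y`, `h := t⁻¹ • φ`
(`t⁻¹ ∈ A` by `T.redA_ne_zero_iff`). -/
theorem IsDepth.inS {T : MultiRed K F k Fb} {x : F} {p : ℕ} (hp : p.Prime) {f : F} {γ : K}
    (h : IsDepth T x p f γ) : InS T p (γ ^ p) f := by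
  intro i
  have : Nonempty ι := ⟨i⟩
  obtain ⟨y, t, φ, a, hy, -, ht1, hφO, -, heq⟩ := h.chart₁
  have ht : T.redA t ≠ 0 := by rw [ht1]; exact one_ne_zero
  obtain ⟨ht0, -, htinv⟩ := T.redA_ne_zero_iff.mp ht
  obtain ⟨s, hs⟩ := IsAlgClosed.exists_pow_nat_eq t⁻¹ hp.pos
  have hs0 : s ≠ 0 := by
    rintro rfl
    rw [zero_pow hp.ne_zero] at hs
    exact inv_ne_zero ht0 hs.symm
  refine ⟨algebraMap K F s * y, mul_ne_zero (by simpa using hs0) hy, algebraMap K F t⁻¹ * φ,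
    (T.R i).O.mul_mem _ _ (T.algebraMap_mem htinv i) (hφO i), ?_⟩
  have e1 : f * (algebraMap K F s * y) ^ p = algebraMap K F (s ^ p) * (y ^ p * f) := by
    rw [map_pow]; ring
  rw [e1, hs, heq, Algebra.smul_def, mul_add, ← map_mul, inv_mul_cancel₀ ht0, map_one]
  ring

/-- **(D9b) The depth theorem.**
PROOF. `D` with `divOf f = p • D` : `D := (divOf f).mapRange (· / p) _` (`Int.ediv`; `hdiv`), `Finsupp.ext`.  `exists_glued_one h.toIsPreNodal hp hD hf` gives `a₁`;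
`a := max (max a₀ a₁) 1`.  `noSec` : if `y ≠ 0`, `y ∈ L(D)` then `f` is a `p`-th power: this is the proof of `DR.Abs.isPow_of_glued_one` after its first line
(`deg D = 0`, `eq_neg_divOf_of_degree_zero`, `f y^p` constant, `K` algebraically closed).  So `C : Ctx T x N a₀ p f D a`.
`exists_opt C` : `O`.  Fields: `O.γ_ne`, `O.γ_small`, `O.le C hp`, `O.exists_const C hp` (`y₁ ≠ 0` since `T.red y₁ = 1`), `O.sharp C hp`. -/
theorem exists_depth {T : MultiRed K F k Fb} {x : F} {N : NodeData k Fb E} {a₀ : ℕ}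
    (h : IsNodal T x N a₀) {p : ℕ} (hp : p.Prime) [CharP k p] {f : F}
    (hdiv : ∀ P : Place K F, (p : ℤ) ∣ P.ord f) (hf : T.red f = 1) (hnp : ¬ ∃ w : F, f = w ^ p) :
    ∃ γ : K, IsDepth T x p f γ := by
  classical
  obtain ⟨i₀⟩ := MultiRed.IsCartesian.nonempty h.cart
  have hp0 : p ≠ 0 := hp.ne_zero
  have hf0 : f ≠ 0 := by
    rintro rfl
    rw [T.red_zero] at hf
    exact zero_ne_one (congrFun hf i₀)
  set D : Divisor K F := (divOf (K := K) f).mapRange (fun n => n / (p : ℤ)) (by simp) with hDdef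
  have hD : divOf (K := K) f = p • D := by
    ext P
    rw [Finsupp.smul_apply, hDdef, Finsupp.mapRange_apply, divOf_apply, nsmul_eq_mul]
    exact (Int.mul_ediv_cancel' (hdiv P)).symm
  obtain ⟨a₁, ha₁⟩ := exists_glued_one h.toIsPreNodal hp hD hf
  have noSec : ∀ y : F, y ≠ 0 → y ∉ riemannRochSpace D := by
    intro y hy0 hyD
    apply hnp
    have hdeg : Divisor.degree D = 0 := by
      have h1 := congrArg Divisor.degree hD
      rw [degree_divOf, map_nsmul] at h1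
      simpa [hp0] using h1.symm
    have hDy := eq_neg_divOf_of_degree_zero hdeg hy0 hyD
    have hconst : f * y ^ p ∈ Set.range (algebraMap K F) := by
      apply mem_range_of_ord_nonneg
      intro P
      have h0 : divOf (K := K) (f * y ^ p) = 0 := by
        rw [divOf_mul hf0 (pow_ne_zero _ hy0), divOf_pow, hD, hDy]
        simp
      have h1 := DFunLike.congr_fun h0 P
      rw [divOf_apply] at h1
      rw [h1]
      simp
    obtain ⟨c, hc⟩ := hconst
    obtain ⟨d, hd⟩ := IsAlgClosed.exists_pow_nat_eq c hp.pos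
    refine ⟨algebraMap K F d / y, ?_⟩
    rw [div_pow, ← map_pow, hd, hc]
    field_simp
  have C : Ctx T x N a₀ p f D (max (max a₀ a₁) 1) :=
    { nodal := h
      div := hD
      red := hf
      glued := fun a' b' hab => ha₁ a' b'
        (le_trans (le_trans (le_max_right _ _) (le_max_left _ _)) hab)
      noSec := noSec
      ha₀ := le_trans (le_max_left _ _) (le_max_left _ _)
      ha := le_max_right _ _ }
  obtain ⟨y₁, y₂, ξ₀, γ, O⟩ := exists_opt C
  obtain ⟨t, φ₁, φ₂, htA, ht1, hφ₁O, hφ₂O, hφ₁L, hφ₂L, e₁, e₂, -⟩ := O.exists_const C hp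
  have hy₁ : y₁ ≠ 0 := by
    rintro rfl
    have h1 := O.pair.red₁
    rw [T.red_zero] at h1
    exact zero_ne_one (congrFun h1 i₀)
  have hy₂ : y₂ ≠ 0 := by
    rintro rfl
    have h1 := O.pair.red₂
    rw [T.red_zero] at h1
    exact zero_ne_one (congrFun h1 i₀)
  exact ⟨γ, O.γ_ne, O.γ_small, O.le C hp, ⟨y₁, t, φ₁, _, hy₁, htA, ht1, hφ₁O, hφ₁L, e₁⟩,
    ⟨y₂, t, φ₂, _, hy₂, htA, ht1, hφ₂O, hφ₂L, e₂⟩, fun hρ π hπ => O.sharp C hp hρ hπ⟩

end Fermat.Agent.S33.Depth
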