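import Fermat.Agent.S33.Depth.Defs
import Fermat.Agent.S36.Abs.Genus
import Fermat.Agent.DR.Conc.LiftAbs

/-!
# S33 / Depth / Single : good reduction as a nodal reduction with one component and no node
-/

set_option autoImplicit false

namespace Fermat.Agent.S33.Depth

open AlgebraicCurve Fermat.Agent.Lib.RR Fermat.Agent.GAL.RED Fermat.Agent.DR.Abs

variable {K F k Fb : Type*} [Field K] [Field F] [Algebra K F] [Field k] [Field Fb] [Algebra k Fb]

/-- The family with one member. -/
noncomputable def single (R : RedData K F k Fb) : MultiRed K F k (fun _ : Unit => Fb) where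
  R := fun _ => R
  A := R.A
  redA := R.redA
  A_eq := fun _ => rfl
  redA_eq := fun _ _ => rfl
  redA_surj := fun c => by
    obtain ⟨⟨a, ha⟩, rfl⟩ := R.resA_surjective c
    exact ⟨a, ha, R.redA_of_mem ha⟩

/-- No node. -/
def noNodes (k Fb : Type*) [Field k] [Field Fb] [Algebra k Fb] :
    NodeData k (fun _ : Unit => Fb) Empty where
  i₁ := fun e => e.elim
  i₂ := fun e => e.elim
  p₁ := fun e => e.elim
  p₂ := fun e => e.elim

theorem mem_single_O (R : RedData K F k Fb) {y : F} : y ∈ (single R).O ↔ y ∈ R.O :=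
  ⟨fun h => h (), fun h _ => h⟩

theorem single_red (R : RedData K F k Fb) (y : F) : (single R).red y = fun _ => R.red y := rfl

theorem isSmall_single (R : RedData K F k Fb) {c : K} :
    IsSmall (single R) c ↔ c ∈ R.A ∧ R.redA c = 0 := Iff.rfl

variable [IsFF K F] [IsAlgClosed K] [IsFF k Fb] [IsAlgClosed k]

/-- **(D10)** good reduction is nodal.
PROOF. `S36.Abs.isPreNodal_of_genus_eq` with `ι = Unit`, `E = Empty` :
`Sep` : given `u`, `c` with `c () ≠ 0`, lift `u ()` to `h₀ ∈ R.O` (`R.res_surjective`, `R.red_of_mem`) and take `h := (c ())⁻¹ • h₀`;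
`Adapted` : `inj` (the type `Empty ⊕ Empty` is empty), `nonconst := hx`, `unit₁/unit₂` vacuous;
`hdeg` : `Fintype.sum` over `Unit` (`Finset.univ_unique`, `Finset.sum_singleton`);  `NodesGlued` vacuous;
`hEQ` : `Fintype.card Empty = 0`, sum over `Unit`, `hg`.  `conn` : all indices are equal (`Subsingleton Unit`). -/
theorem isNodal_single (R : RedData K F k Fb) (hg : genusFF K F = genusFF k Fb) {x : F}
    (hx : R.red x ∉ Set.range (algebraMap k Fb))
    (hdeg : Divisor.degree (poleDiv (K := K) x) = Divisor.degree (poleDiv (K := k) (R.red x))) :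
    ∃ a₀ : ℕ, IsNodal (single R) x (noNodes k Fb) a₀ := by
  have hS : (single R).Sep := by
    intro u c hc
    obtain ⟨⟨h₀, hh₀⟩, hu⟩ := R.res_surjective (u ())
    refine ⟨(c ())⁻¹ • h₀, fun i => ?_⟩
    cases i
    have he : c () • (c ())⁻¹ • h₀ = h₀ := by
      rw [smul_smul, mul_inv_cancel₀ (hc ()), one_smul]
    rw [he]
    exact ⟨hh₀, (R.red_of_mem hh₀).trans hu⟩
  have hN : (noNodes k Fb).Adapted ((single R).red x) :=
    { inj := fun a => by rcases a with e | e <;> exact e.elim
      nonconst := fun _ => hx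
      unit₁ := fun e => e.elim
      unit₂ := fun e => e.elim }
  have hdeg' : Divisor.degree (poleDiv (K := K) x) =
      ∑ i : Unit, Divisor.degree (poleDiv (K := k) (((single R).R i).red x)) := by
    rw [Finset.univ_unique, Finset.sum_singleton]
    exact hdeg
  have hgl : Fermat.Agent.S36.Abs.NodesGlued (single R) x (noNodes k Fb) :=
    fun _ _ _ e => e.elim
  have hEQ : (Fintype.card Empty : ℤ) + ∑ _i : Unit, ((genusFF k Fb : ℤ) - 1) =
      (genusFF K F : ℤ) - 1 := by
    rw [Finset.univ_unique, Finset.sum_singleton, hg]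
    simp
  obtain ⟨a₀, h⟩ := Fermat.Agent.S36.Abs.isPreNodal_of_genus_eq hS hN hdeg' hgl hEQ
  exact ⟨a₀, { toIsPreNodal := h, conn := fun c _ i j => by cases i; cases j; rfl }⟩

end Fermat.Agent.S33.Depth
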