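import Fermat.Agent.S33.HeckeP.Contract
import Fermat.Agent.GAL.Hecke.NormFormula
import Fermat.Agent.GAL.Hecke.HeckeBasic
import Fermat.Agent.DR.Conc.Formulas

/-!
# S33 / Depth / Soft : `T_q` at level `M` (`q ∤ M`, residue characteristic `q`) makes a class strictly deeper, below the top depth

`R = RMq A M q` the Gauss reduction of `FN M`, `u = 1 + ϖ^q h`, `h ∈ R.O`, `ϖ` small, `ρ = q / ϖ^(q-1)` small.  Then `heckeNorm u * G^q = 1 + ε ϖ^q h'` with `ε` small.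
Formula (`GAL.Hecke.qExpand_heckeNorm`) : `(N u)(t^q) = u(t^(q²)) ∏_{i<q} u(ζ^i t)`, i.e. `N u = u(s^q) · U(s)` with `U(t^q) = ∏ u(ζ^i t)`.
-/

set_option autoImplicit false
set_option linter.unusedSectionVars false

noncomputable section

namespace Fermat.Agent.S33.Depth

open AlgebraicCurve ModularCurve Fermat.Agent.S24 Fermat.Agent.GAL Fermat.Agent.GAL.Hecke
  Fermat.Agent.GAL.Gauss Fermat.Agent.GAL.RED Fermat.Agent.DR Fermat.Agent.DR.Gal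
  Fermat.Agent.S33.HeckeP

variable (A : ValuationSubring Kbar) (M q : ℕ) [NeZero M] [NeZero q] (hq : q.Prime)
  (hqM : ¬ q ∣ M) (hA : A.LiesOverPrime q)
  [Fact q.Prime] [CharP (IsLocalRing.ResidueField ↥A) q] [PerfectRing (IsLocalRing.ResidueField ↥A) q]

/-- **(S-V)** `h(s^q) = a^q + δ e` with `a ∈ FN M` integral, `δ` small, `e` Gauss-integral.
PROOF. `ab := (Conc.FrE k M q).symm (R.red h)`; `a ∈ R.O` with `R.red a = ab` (`R.res_surjective`, `R.red_of_mem`).  `y := heckeBetaBar Kbar M q h - (heckeAlphaBar Kbar M q a)^q : FN (M*q)`.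
`y ∈ R1.O` (`Conc.beta_mem_R1_O_iff`, `Conc.alpha_mem_R1_O_iff`), `R1.red y = Phi (red h) - ab^q = 0` (`Conc.R1_red_beta`, `Conc.R1_red_alpha`, `R1.red_pow`/`red_mul`, `Conc.Phi_eq_pow`).
If `y = 0` take `δ = 0`, `e = 0`.  Otherwise `Conc.R1_scale` : `c ≠ 0`, `R1.red (c y) ≠ 0`; `δ := c⁻¹`, `e := coe (c y) ∈ gRing A` (`Conc.mem_R1_O_iff`, `R1.mem_of_red_ne_zero`).
`δ ∈ A` and `δ⁻¹ = c ∉ A` : if `c ∈ A` then `R1.red (c y) = c̄ * R1.red y = 0` (`R1.red_mul`, `R1.algebraMap_mem`); so `c ∉ A`, hence `c⁻¹ ∈ A` (`A.mem_or_inv_mem`).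
Coercions : `coe_heckeBetaBar`, `coe_heckeAlphaBar`, `Conc.coe_algebraMap_FN`. -/
theorem exists_frob_root {h : FN M} (hh : h ∈ (Conc.RMq A M q hq hqM hA).O) :
    ∃ (a : FN M) (δ : Kbar) (e : LaurentSeries Kbar), a ∈ (Conc.RMq A M q hq hqM hA).O ∧ δ ∈ A ∧
      (δ = 0 ∨ δ⁻¹ ∉ A) ∧ e ∈ gRing A ∧
      qExpand Kbar q (h : LaurentSeries Kbar) = (a : LaurentSeries Kbar) ^ q + HahnSeries.C δ * e := by
  obtain ⟨a, haO, ha⟩ := (Conc.RMq A M q hq hqM hA).exists_lift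
    ((Conc.FrE _ M q).symm ((Conc.RMq A M q hq hqM hA).red h))
  have hβ : heckeBetaBar Kbar M q h ∈ (Conc.R1 A M q hq hqM hA).O :=
    (Conc.beta_mem_R1_O_iff A M q hq hqM hA h).2 hh
  have hα : heckeAlphaBar Kbar M q a ∈ (Conc.R1 A M q hq hqM hA).O :=
    (Conc.alpha_mem_R1_O_iff A M q hq hqM hA a).2 haO
  have hαq : heckeAlphaBar Kbar M q a ^ q ∈ (Conc.R1 A M q hq hqM hA).O := pow_mem hα q
  obtain ⟨y, hy⟩ : ∃ y : FN (M * q),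
      y = heckeBetaBar Kbar M q h - heckeAlphaBar Kbar M q a ^ q := ⟨_, rfl⟩
  have hyO : y ∈ (Conc.R1 A M q hq hqM hA).O := by
    rw [hy]
    exact sub_mem hβ hαq
  have hy0 : (Conc.R1 A M q hq hqM hA).red y = 0 := by
    rw [hy, (Conc.R1 A M q hq hqM hA).red_sub hβ hαq, (Conc.R1 A M q hq hqM hA).red_pow,
      Conc.R1_red_beta, Conc.R1_red_alpha, ha, Conc.Phi_eq_pow, sub_self]
  have hcoe : qExpand Kbar q (h : LaurentSeries Kbar) =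
      (a : LaurentSeries Kbar) ^ q + (y : LaurentSeries Kbar) := by
    have h1 : (y : LaurentSeries Kbar) =
        qExpand Kbar q (h : LaurentSeries Kbar) - (a : LaurentSeries Kbar) ^ q := by
      rw [hy, AddSubgroupClass.coe_sub, IntermediateField.coe_pow, coe_heckeBetaBar,
        coe_heckeAlphaBar]
    rw [h1]
    ring
  by_cases hy00 : y = 0
  · refine ⟨a, 0, 0, haO, A.zero_mem, Or.inl rfl, (gRing A).zero_mem, ?_⟩
    rw [hcoe, hy00]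
    simp
  · obtain ⟨c, hc0, hc⟩ := Conc.R1_scale A M q hq hqM hA y hy00
    have hcA : c ∉ A := by
      intro hcA
      apply hc
      rw [(Conc.R1 A M q hq hqM hA).red_mul ((Conc.R1 A M q hq hqM hA).algebraMap_mem _ hcA) hyO,
        hy0, mul_zero]
    have hcinv : c⁻¹ ∈ A := (A.mem_or_inv_mem c).resolve_left hcA
    refine ⟨a, c⁻¹, ((algebraMap Kbar (FN (M * q)) c * y : FN (M * q)) : LaurentSeries Kbar), haO,
      hcinv, Or.inr (by rwa [inv_inv]),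
      (Conc.mem_R1_O_iff A M q hq hqM hA _).1 ((Conc.R1 A M q hq hqM hA).mem_of_red_ne_zero hc), ?_⟩
    rw [hcoe, IntermediateField.coe_mul, Conc.coe_algebraMap_FN, ← mul_assoc, ← map_mul,
      inv_mul_cancel₀ hc0, map_one, one_mul]

omit [NeZero M] [NeZero q] [Fact q.Prime] [CharP (IsLocalRing.ResidueField ↥A) q]
  [PerfectRing (IsLocalRing.ResidueField ↥A) q] in
theorem Soft_U_small_iff {x : Kbar} (hx : x ≠ 0) : x⁻¹ ∉ A ↔ A.valuation x < 1 := by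
  rw [← A.valuation_le_one_iff, map_inv₀, not_le,
    one_lt_inv₀ (zero_lt_iff.2 ((Valuation.ne_zero_iff _).2 hx))]

omit [NeZero M] [NeZero q] [Fact q.Prime] [CharP (IsLocalRing.ResidueField ↥A) q]
  [PerfectRing (IsLocalRing.ResidueField ↥A) q] in
/-- `ζ - 1` divides `q` in `A`. -/
theorem Soft_U_dvd {ζ : Kbar} (hζ : IsPrimitiveRoot ζ q) (hq : q.Prime) :
    ∃ a ∈ A, (q : Kbar) = (ζ - 1) * a := by
  have hζA : ζ ∈ A := mem_of_pow_eq_one' A hq.pos hζ.pow_eq_one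
  obtain ⟨m, rfl⟩ : ∃ m, q = m + 1 + 1 := ⟨q - 2, by have := hq.two_le; omega⟩
  have h := hζ.prod_one_sub_pow_eq_order
  rw [Finset.prod_range_succ', zero_add, pow_one] at h
  refine ⟨-∏ k ∈ Finset.range m, (1 - ζ ^ (k + 1 + 1)), A.neg_mem _ (A.toSubring.prod_mem
    fun k _ => A.sub_mem A.one_mem (pow_mem hζA _)), ?_⟩
  have h2 : ((m + 1 + 1 : ℕ) : Kbar) = ((m + 1 : ℕ) : Kbar) + 1 := by push_cast; ring
  rw [h2, ← h]
  ring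

omit [NeZero M] [NeZero q] [Fact q.Prime] [CharP (IsLocalRing.ResidueField ↥A) q]
  [PerfectRing (IsLocalRing.ResidueField ↥A) q] in
/-- `ζ - 1` is small. -/
theorem Soft_U_zeta_small {ζ : Kbar} (hζ : IsPrimitiveRoot ζ q) (hq : q.Prime)
    (hA : A.LiesOverPrime q) : (ζ - 1)⁻¹ ∉ A := by
  have hζA : ζ ∈ A := mem_of_pow_eq_one' A hq.pos hζ.pow_eq_one
  have hζA' : ζ⁻¹ ∈ A := mem_of_pow_eq_one' A hq.pos (by rw [inv_pow, hζ.pow_eq_one, inv_one])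
  have hζ0 : ζ ≠ 0 := hζ.ne_zero hq.ne_zero
  let z : (↥A)ˣ := ⟨⟨ζ, hζA⟩, ⟨ζ⁻¹, hζA'⟩, Subtype.ext (mul_inv_cancel₀ hζ0),
    Subtype.ext (inv_mul_cancel₀ hζ0)⟩
  have hz : z ^ q = 1 := by
    apply Units.ext
    apply Subtype.ext
    show ζ ^ q = 1
    exact hζ.pow_eq_one
  have h1 := residue_eq_one_of_pow_eq_one A hq hA z hz
  have h2 : IsLocalRing.residue ↥A ((z : ↥A) - 1) = 0 := by rw [map_sub, h1, map_one, sub_self]
  rw [IsLocalRing.residue_eq_zero_iff, IsLocalRing.mem_maximalIdeal, mem_nonunits_iff] at h2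
  intro hinv
  apply h2
  have hne : ζ - 1 ≠ 0 := sub_ne_zero.2 (hζ.ne_one hq.one_lt)
  exact IsUnit.of_mul_eq_one ⟨(ζ - 1)⁻¹, hinv⟩ (Subtype.ext (mul_inv_cancel₀ hne))

/-- **(S-U)** the `U`-part.
PROOF. `ζ` a primitive `q`-th root of unity in `Kbar` (`IsAlgClosed`, `HasEnoughRootsOfUnity`/`Polynomial.cyclotomic` as in `S19.ND.exists_zeta`).  `u := 1 + c • h` (`≠ 0`: its reduction is `1`), `Us := coe (heckeNorm u) * (qExpand q (coe u))⁻¹`.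
`qExpand_heckeNorm` gives `qExpand q Us = ∏ i, twist (ζ^i) (1 + C c * coe h)` (`map_mul`, `map_inv₀`, cancel `qExpand q (qExpand q u) ≠ 0`; pass from `Finset.range`/`S28.twist` to `Fin q`/`S24.twist` as in the proof of
`GAL.Hecke.qExpand_heckeNorm`, or use `NormFormula.qExpand_heckeNorm` directly).  `e₀ := ζ - 1` if `∃ a ∈ A, c^(q-1) = (ζ-1) a`, else `e₀ := c^(q-1)` (then `ζ - 1 = c^(q-1) a`, `a ∈ A`, since `A` is a valuation ring).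
`ζ - 1` divides `q` in `A` (`q = ∏_{i=1}^{q-1} (1 - ζ^i)`; or `Depth.eq_one_of_pow_eq_one`-style; `q - 1 ≥ 1`), `ζ - 1` is small (`GAL.Hecke.residue_eq_one_of_pow_eq_one`), `c^(q-1)` is small.
Apply `S33.HeckeP.exists_of_qExpand_eq_prod`. -/
theorem exists_U_part {c : Kbar} (hc0 : c ≠ 0) (hc : c ∈ A) (hc' : c⁻¹ ∉ A) {h : FN M}
    (hh : h ∈ (Conc.RMq A M q hq hqM hA).O) :
    ∃ (e₀ : Kbar) (H' : LaurentSeries Kbar), e₀ ≠ 0 ∧ e₀ ∈ A ∧ e₀⁻¹ ∉ A ∧ H' ∈ gRing A ∧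
      ((heckeNorm Kbar M q (1 + c • h) : FN M) : LaurentSeries Kbar) =
        (1 + HahnSeries.C c * qExpand Kbar q (h : LaurentSeries Kbar)) *
          (1 + HahnSeries.C (c * e₀) * H') := by
  have hNZ : NeZero ((q : ℕ) : Kbar) := ⟨by exact_mod_cast hq.ne_zero⟩
  obtain ⟨ζ, hζ⟩ := HasEnoughRootsOfUnity.exists_primitiveRoot Kbar q
  have hH : (h : LaurentSeries Kbar) ∈ gRing A := (Conc.mem_RM_O_iff A M _ h).1 hh
  have hu : ((1 + c • h : FN M) : LaurentSeries Kbar) =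
      1 + HahnSeries.C c * (h : LaurentSeries Kbar) := by
    rw [Algebra.smul_def]
    push_cast
    rw [algebraMap_eq_C]
  have hu0 : (1 + HahnSeries.C c * (h : LaurentSeries Kbar)) ≠ 0 := by
    intro h0
    have hC : (HahnSeries.C c⁻¹ : LaurentSeries Kbar) * HahnSeries.C c = 1 := by
      rw [← map_mul, inv_mul_cancel₀ hc0, map_one]
    have h3 : (HahnSeries.C c⁻¹ : LaurentSeries Kbar) = -(h : LaurentSeries Kbar) := by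
      linear_combination (HahnSeries.C c⁻¹ : LaurentSeries Kbar) * h0 -
        (h : LaurentSeries Kbar) * hC
    exact hc' ((C_mem_gRing_iff A c⁻¹).1 (by rw [h3]; exact neg_mem hH))
  have hl0 : ζ - 1 ≠ 0 := sub_ne_zero.2 (hζ.ne_one hq.one_lt)
  have hlA : ζ - 1 ∈ A :=
    A.sub_mem (mem_of_pow_eq_one' A hq.pos hζ.pow_eq_one) A.one_mem
  have hcq0 : c ^ (q - 1) ≠ 0 := pow_ne_zero _ hc0
  obtain ⟨e₀, he0, heA, hesmall, h1, h2, h3⟩ : ∃ e₀ : Kbar, e₀ ≠ 0 ∧ e₀ ∈ A ∧ e₀⁻¹ ∉ A ∧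
      (∃ a ∈ A, ζ - 1 = e₀ * a) ∧ (∃ a ∈ A, (q : Kbar) = e₀ * a) ∧
      (∃ a ∈ A, c ^ (q - 1) = e₀ * a) := by
    obtain ⟨b, hb, hqb⟩ := Soft_U_dvd A q hζ hq
    by_cases hcase : ∃ a ∈ A, c ^ (q - 1) = (ζ - 1) * a
    · exact ⟨ζ - 1, hl0, hlA, Soft_U_zeta_small A q hζ hq hA, ⟨1, A.one_mem, (mul_one _).symm⟩,
        ⟨b, hb, hqb⟩, hcase⟩
    · have hx : c ^ (q - 1) / (ζ - 1) ∉ A := fun hx =>
        hcase ⟨_, hx, by rw [mul_div_cancel₀ _ hl0]⟩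
      have hx' : (c ^ (q - 1) / (ζ - 1))⁻¹ ∈ A := (A.mem_or_inv_mem _).resolve_left hx
      rw [inv_div] at hx'
      have hl : ζ - 1 = c ^ (q - 1) * ((ζ - 1) / c ^ (q - 1)) := by rw [mul_div_cancel₀ _ hcq0]
      refine ⟨c ^ (q - 1), hcq0, pow_mem hc _, ?_, ⟨_, hx', hl⟩,
        ⟨(ζ - 1) / c ^ (q - 1) * b, A.mul_mem _ _ hx' hb, ?_⟩, ⟨1, A.one_mem, (mul_one _).symm⟩⟩
      · rw [Soft_U_small_iff A hcq0, map_pow]
        have hq1 : q - 1 ≠ 0 := by have := hq.two_le; omega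
        exact pow_lt_one₀ zero_le ((Soft_U_small_iff A hc0).1 hc') hq1
      · rw [← mul_assoc, ← hl, hqb]
  have hX0 : qExpand Kbar q (qExpand Kbar q (1 + HahnSeries.C c * (h : LaurentSeries Kbar))) ≠ 0 := by
    rw [Ne, map_eq_zero, map_eq_zero]
    exact hu0
  have hX1 : qExpand Kbar q (1 + HahnSeries.C c * (h : LaurentSeries Kbar)) ≠ 0 := by
    rw [Ne, map_eq_zero]
    exact hu0
  have hU : qExpand Kbar q (((heckeNorm Kbar M q (1 + c • h) : FN M) : LaurentSeries Kbar) *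
      (qExpand Kbar q (1 + HahnSeries.C c * (h : LaurentSeries Kbar)))⁻¹) =
      ∏ i : Fin q, Fermat.Agent.S24.twist (ζ ^ (i : ℕ)) (pow_ne_zero _ (hζ.ne_zero hq.ne_zero))
        (1 + HahnSeries.C c * (h : LaurentSeries Kbar)) := by
    rw [map_mul, map_inv₀, NormFormula.qExpand_heckeNorm hq hqM hζ, hu, mul_comm, ← mul_assoc,
      inv_mul_cancel₀ hX0, one_mul]
  obtain ⟨H', hH', hUeq⟩ := exists_of_qExpand_eq_prod A hq hζ hc heA hc0 he0 h1 h2 h3 hH hU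
  refine ⟨e₀, H', he0, heA, hesmall, hH', ?_⟩
  have h4 : ((heckeNorm Kbar M q (1 + c • h) : FN M) : LaurentSeries Kbar) =
      qExpand Kbar q (1 + HahnSeries.C c * (h : LaurentSeries Kbar)) *
        (((heckeNorm Kbar M q (1 + c • h) : FN M) : LaurentSeries Kbar) *
          (qExpand Kbar q (1 + HahnSeries.C c * (h : LaurentSeries Kbar)))⁻¹) := by
    rw [mul_comm, mul_assoc, inv_mul_cancel₀ hX1, mul_one]
  rw [h4, hUeq, map_add, map_one, map_mul, qExpand_C]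

/-- the ring identity behind `heckeNorm_soft`. -/
theorem heckeNorm_soft_ring {L : Type*} [CommRing L] (W Aq Z PQ Q w a r e H cε d1 d2 d3 : L)
    (h1 : PQ * Z = 1) (h2 : PQ = 1 + W * Aq + Q * 1 * (w * a) * r) (h3 : Q * w = cε * d2 * W) :
    (1 + W * (Aq + cε * d1 * e)) * (1 + W * (cε * d3) * H) * Z - 1 =
      cε * W * ((d1 * e - d2 * a * r) * Z +
        d3 * H * (1 + W * (cε * d1 * e - cε * d2 * a * r) * Z)) := by
  linear_combination (1 + W * (cε * d3) * H) * h1 - Z * (1 + W * (cε * d3) * H) * h2 -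
    a * r * Z * (1 + W * (cε * d3) * H) * h3

/-- the abstract form of the computation. -/
theorem heckeNorm_soft_algebra {K L : Type*} [Field K] [Field L] (C : K →+* L) (𝒢 : Subring L)
    (A : ValuationSubring K) (hC : ∀ x ∈ A, C x ∈ 𝒢) {q : ℕ} (hq : q.Prime) {w ε d1 d2 d3 : K}
    (hw0 : w ≠ 0) (hw : w ∈ A) (hε0 : ε ≠ 0) (hε : ε ∈ A) (hd1 : d1 ∈ A) (hd2 : d2 ∈ A)
    (hd3 : d3 ∈ A) (hρ : (q : K) = ε * d2 * w ^ (q - 1)) {a e H : L} (ha : a ∈ 𝒢) (he : e ∈ 𝒢)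
    (hH : H ∈ 𝒢) (hP0 : 1 + C w * a ≠ 0) (hP : (1 + C w * a)⁻¹ ∈ 𝒢) :
    C (ε * w ^ q)⁻¹ * ((1 + C (w ^ q) * (a ^ q + C (ε * d1) * e)) *
      (1 + C (w ^ q * (ε * d3)) * H) * ((1 + C w * a)⁻¹) ^ q - 1) ∈ 𝒢 := by
  have hwa : C w * a ∈ 𝒢 := 𝒢.mul_mem (hC _ hw) ha
  obtain ⟨r, hr⟩ := exists_add_pow_prime_eq hq (1 : 𝒢) ⟨C w * a, hwa⟩
  have hr' : (1 + C w * a) ^ q = 1 + (C w) ^ q * a ^ q + (q : L) * 1 * (C w * a) * (r : L) := by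
    have := congrArg (Subtype.val) hr
    simpa [mul_pow] using this
  have h1 : (1 + C w * a) ^ q * ((1 + C w * a)⁻¹) ^ q = 1 := by
    rw [← mul_pow, mul_inv_cancel₀ hP0, one_pow]
  have h3 : (q : L) * C w = C ε * C d2 * (C w) ^ q := by
    have h4 : (q : K) * w = ε * d2 * w ^ q := by
      rw [hρ, mul_assoc, ← pow_succ, Nat.sub_add_cancel hq.one_le]
    have h5 := congrArg C h4
    simpa [map_mul, map_pow, map_natCast] using h5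
  have key := heckeNorm_soft_ring ((C w) ^ q) (a ^ q) (((1 + C w * a)⁻¹) ^ q) ((1 + C w * a) ^ q)
    (q : L) (C w) a r e H (C ε) (C d1) (C d2) (C d3) h1 hr' h3
  have hne : C ε * (C w) ^ q ≠ 0 :=
    mul_ne_zero ((map_ne_zero C).2 hε0) (pow_ne_zero _ ((map_ne_zero C).2 hw0))
  simp only [map_mul, map_pow, map_inv₀]
  rw [key, inv_mul_cancel_left₀ hne]
  have hZ : ((1 + C w * a)⁻¹) ^ q ∈ 𝒢 := 𝒢.pow_mem hP q
  have hW : (C w) ^ q ∈ 𝒢 := 𝒢.pow_mem (hC _ hw) q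
  have hr𝒢 : (r : L) ∈ 𝒢 := r.2
  have t1 : C d1 * e - C d2 * a * r ∈ 𝒢 :=
    𝒢.sub_mem (𝒢.mul_mem (hC _ hd1) he) (𝒢.mul_mem (𝒢.mul_mem (hC _ hd2) ha) hr𝒢)
  have t2 : C ε * C d1 * e - C ε * C d2 * a * r ∈ 𝒢 :=
    𝒢.sub_mem (𝒢.mul_mem (𝒢.mul_mem (hC _ hε) (hC _ hd1)) he)
      (𝒢.mul_mem (𝒢.mul_mem (𝒢.mul_mem (hC _ hε) (hC _ hd2)) ha) hr𝒢)
  exact 𝒢.add_mem (𝒢.mul_mem t1 hZ) (𝒢.mul_mem (𝒢.mul_mem (hC _ hd3) hH)
    (𝒢.add_mem 𝒢.one_mem (𝒢.mul_mem (𝒢.mul_mem hW t2) hZ)))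

/-- `1 + w a` is a unit of `R.O` for `w` small. -/
theorem heckeNorm_soft_unit {K F k Fb : Type*} [Field K] [Field F] [Algebra K F] [Field k]
    [Field Fb] [Algebra k Fb] (R : RedData K F k Fb) {w : K} (hw : w ∈ R.A) (hw' : w⁻¹ ∉ R.A)
    {a : F} (ha : a ∈ R.O) : (1 + w • a) ≠ 0 ∧ (1 + w • a)⁻¹ ∈ R.O := by
  have hredw : R.redA w = 0 := by
    by_contra hne
    exact hw' (R.redA_ne_zero_iff.1 hne).2.2
  have hwa : w • a ∈ R.O := by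
    rw [Algebra.smul_def]
    exact R.O.mul_mem _ _ (R.algebraMap_mem w hw) ha
  have hred : R.red (1 + w • a) = 1 := by
    rw [R.red_add R.O.one_mem hwa, R.red_one, R.red_smul hw ha, hredw, zero_smul, add_zero]
  have hred0 : R.red (1 + w • a) ≠ 0 := by
    rw [hred]; exact one_ne_zero
  exact ⟨R.ne_zero_of_red_ne_zero hred0, R.inv_mem_of_red_ne_zero hred0⟩

theorem heckeNorm_soft_smul {K F : Type*} [Field K] [Field F] [Algebra K F] {c : K} (hc : c ≠ 0)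
    (x : F) : x = 1 + c • (c⁻¹ • (x - 1)) := by
  rw [smul_smul, mul_inv_cancel₀ hc, one_smul]
  ring

/-- of two small elements one divides the other. -/
theorem heckeNorm_soft_pair {K : Type*} [Field K] (A : ValuationSubring K) {x y : K} (hx : x ∈ A)
    (hx' : x = 0 ∨ x⁻¹ ∉ A) (hy0 : y ≠ 0) (hy : y ∈ A) (hy' : y⁻¹ ∉ A) :
    ∃ ε, ε ≠ 0 ∧ ε ∈ A ∧ ε⁻¹ ∉ A ∧ (∃ d ∈ A, x = ε * d) ∧ (∃ d ∈ A, y = ε * d) := by
  by_cases hx0 : x = 0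
  · exact ⟨y, hy0, hy, hy', ⟨0, A.zero_mem, by rw [hx0, mul_zero]⟩, ⟨1, A.one_mem, (mul_one y).symm⟩⟩
  rcases A.mem_or_inv_mem (x / y) with h | h
  · exact ⟨y, hy0, hy, hy', ⟨x / y, h, by field_simp⟩, ⟨1, A.one_mem, (mul_one y).symm⟩⟩
  · rw [inv_div] at h
    exact ⟨x, hx0, hx, hx'.resolve_left hx0, ⟨1, A.one_mem, (mul_one x).symm⟩,
      ⟨y / x, h, by field_simp⟩⟩

/-- of three small elements one divides the two others. -/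
theorem heckeNorm_soft_choose {K : Type*} [Field K] (A : ValuationSubring K) {x y z : K}
    (hx : x ∈ A) (hx' : x = 0 ∨ x⁻¹ ∉ A) (hy : y ∈ A) (hy' : y = 0 ∨ y⁻¹ ∉ A) (hz0 : z ≠ 0)
    (hz : z ∈ A) (hz' : z⁻¹ ∉ A) :
    ∃ ε, ε ≠ 0 ∧ ε ∈ A ∧ ε⁻¹ ∉ A ∧ (∃ d ∈ A, x = ε * d) ∧ (∃ d ∈ A, y = ε * d) ∧
      (∃ d ∈ A, z = ε * d) := by
  obtain ⟨ε₁, h0, h1, h2, ⟨d, hd, hxd⟩, ⟨d', hd', hzd⟩⟩ := heckeNorm_soft_pair A hx hx' hz0 hz hz'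
  obtain ⟨ε, g0, g1, g2, ⟨f, hf, hyf⟩, ⟨f', hf', hεf⟩⟩ := heckeNorm_soft_pair A hy hy' h0 h1 h2
  exact ⟨ε, g0, g1, g2, ⟨f' * d, A.mul_mem _ _ hf' hd, by rw [hxd, hεf, mul_assoc]⟩, ⟨f, hf, hyf⟩,
    ⟨f' * d', A.mul_mem _ _ hf' hd', by rw [hzd, hεf, mul_assoc]⟩⟩

/-- **(S1)** the soft estimate on functions.
PROOF. `c := ϖ^q`.  (S-V) : `h(s^q) = a^q + δ e`.  (S-U) : `N u = (1 + c h(s^q)) (1 + c e₀ H')`.  `exists_add_pow_prime_eq hq 1 (ϖ a)` : `(1 + ϖ a)^q = 1 + ϖ^q a^q + q ϖ a r`, `r` a polynomial in `ϖ a` so `∈ gRing`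
(work in the ring `↥(gRing A)` as in `S33.HeckeP.exists_of_qExpand_eq_prod`).  `q ϖ = ρ c`.  So `1 + c h(s^q) = (1 + ϖ a)^q + c (δ e - ρ a r)`.  `G := (1 + ϖ • a)⁻¹` (`1 + ϖ a` is a unit of `R.O` : reduction `1`).
`N u * G^q = (1 + c (δ e - ρ a r) G^q)(1 + c e₀ H') = 1 + c (δ X₁ + ρ X₂ + e₀ X₃)`, `Xᵢ ∈ gRing`.  Choose `ε ∈ {δ, ρ, e₀}` such that the two others are multiples of it in `A` (valuation ring; `ε ≠ 0` because `e₀ ≠ 0`); `ε` is small.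
`h' := (ε c)⁻¹ • (N u * G^q - 1) ∈ FN M`, its expansion is `(δ/ε) X₁ + (ρ/ε) X₂ + (e₀/ε) X₃ ∈ gRing`, so `h' ∈ R.O` (`Conc.mem_RM_O_iff`). -/
theorem heckeNorm_soft {ϖ : Kbar} (hϖ0 : ϖ ≠ 0) (hϖ : ϖ ∈ A) (hϖ' : ϖ⁻¹ ∉ A)
    (hρ : (q : Kbar) / ϖ ^ (q - 1) ∈ A) (hρ' : ((q : Kbar) / ϖ ^ (q - 1))⁻¹ ∉ A) {h : FN M}
    (hh : h ∈ (Conc.RMq A M q hq hqM hA).O) :
    ∃ (G : FN M) (ε : Kbar) (h' : FN M), G ≠ 0 ∧ ε ≠ 0 ∧ ε ∈ A ∧ ε⁻¹ ∉ A ∧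
      h' ∈ (Conc.RMq A M q hq hqM hA).O ∧
      heckeNorm Kbar M q (1 + (ϖ ^ q) • h) * G ^ q = 1 + (ε * ϖ ^ q) • h' := by
  have hq1 : 1 ≤ q := hq.one_le
  have hc0 : ϖ ^ q ≠ 0 := pow_ne_zero _ hϖ0
  have hc : ϖ ^ q ∈ A := A.pow_mem hϖ q
  have hc' : (ϖ ^ q)⁻¹ ∉ A := by
    intro h1
    apply hϖ'
    have h2 : ϖ⁻¹ = ϖ ^ (q - 1) * (ϖ ^ q)⁻¹ := by
      have h3 : ϖ ^ q = ϖ ^ (q - 1) * ϖ := by rw [← pow_succ, Nat.sub_add_cancel hq1]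
      rw [h3, mul_inv, mul_inv_cancel_left₀ (pow_ne_zero _ hϖ0)]
    rw [h2]
    exact A.mul_mem _ _ (A.pow_mem hϖ _) h1
  obtain ⟨a, δ, e, ha, hδ, hδ', he, hV⟩ := exists_frob_root A M q hq hqM hA hh
  obtain ⟨e₀, H', he₀0, he₀, he₀', hH', hU⟩ := exists_U_part A M q hq hqM hA hc0 hc hc' hh
  obtain ⟨ε, hε0, hε, hε', ⟨d1, hd1, hδε⟩, ⟨d2, hd2, hρε⟩, ⟨d3, hd3, heε⟩⟩ :=
    heckeNorm_soft_choose A hδ hδ' hρ (Or.inr hρ') he₀0 he₀ he₀'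
  have hqε : (q : Kbar) = ε * d2 * ϖ ^ (q - 1) := by
    rw [← hρε, div_mul_cancel₀ _ (pow_ne_zero _ hϖ0)]
  -- the unit `1 + ϖ a`
  have hRA : (Conc.RMq A M q hq hqM hA).A = A := Conc.gaussRedData'_A A M _ _ _
  obtain ⟨hp0, hpinv⟩ := heckeNorm_soft_unit (Conc.RMq A M q hq hqM hA) (w := ϖ)
    (by rw [hRA]; exact hϖ) (by rw [hRA]; exact hϖ') ha
  have hcoep : ((1 + ϖ • a : FN M) : LaurentSeries Kbar) =
      1 + HahnSeries.C ϖ * (a : LaurentSeries Kbar) := by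
    rw [IntermediateField.coe_add, IntermediateField.coe_one, coe_smul_FN]
  have hP0 : 1 + HahnSeries.C ϖ * (a : LaurentSeries Kbar) ≠ 0 := by
    rw [← hcoep]
    exact fun h0 => hp0 (Subtype.ext h0)
  have hP : (1 + HahnSeries.C ϖ * (a : LaurentSeries Kbar))⁻¹ ∈ gRing A := by
    rw [← hcoep, ← IntermediateField.coe_inv]
    exact (Conc.mem_RM_O_iff A M _ _).1 hpinv
  have hεc : ε * ϖ ^ q ≠ 0 := mul_ne_zero hε0 hc0
  refine ⟨(1 + ϖ • a)⁻¹, ε, (ε * ϖ ^ q)⁻¹ •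
    (heckeNorm Kbar M q (1 + (ϖ ^ q) • h) * ((1 + ϖ • a)⁻¹) ^ q - 1), inv_ne_zero hp0, hε0, hε, hε',
    ?_, ?_⟩
  · rw [Conc.mem_RM_O_iff, coe_smul_FN]
    have e2 : ((heckeNorm Kbar M q (1 + (ϖ ^ q) • h) * ((1 + ϖ • a)⁻¹) ^ q - 1 : FN M) :
        LaurentSeries Kbar) =
        (1 + HahnSeries.C (ϖ ^ q) * ((a : LaurentSeries Kbar) ^ q + HahnSeries.C (ε * d1) * e)) *
          (1 + HahnSeries.C (ϖ ^ q * (ε * d3)) * H') *
          ((1 + HahnSeries.C ϖ * (a : LaurentSeries Kbar))⁻¹) ^ q - 1 := by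
      have e3 : ((heckeNorm Kbar M q (1 + (ϖ ^ q) • h) * ((1 + ϖ • a)⁻¹) ^ q - 1 : FN M) :
        LaurentSeries Kbar) = ((heckeNorm Kbar M q (1 + (ϖ ^ q) • h) : FN M) : LaurentSeries Kbar) *
          (((1 + ϖ • a : FN M) : LaurentSeries Kbar)⁻¹) ^ q - 1 := rfl
      rw [e3, hU, hV, hcoep, hδε, heε]
    rw [e2]
    exact heckeNorm_soft_algebra (HahnSeries.C : Kbar →+* LaurentSeries Kbar) (gRing A) A
      (fun x hx => (C_mem_gRing_iff A x).mpr hx) hq hϖ0 hϖ hε0 hε hd1 hd2 hd3 hqε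
      ((Conc.mem_RM_O_iff A M _ a).1 ha) he hH' hP0 hP
  · exact heckeNorm_soft_smul hεc _

theorem Soft_red_one_add_smul {K F k Fb : Type*} [Field K] [Field F] [Algebra K F] [Field k]
    [Field Fb] [Algebra k Fb] (R : RedData K F k Fb) {c : K} (hc : c ∈ R.A) (hc0 : R.redA c = 0)
    {h : F} (hh : h ∈ R.O) : R.red (1 + c • h) = 1 := by
  rw [R.red_add R.O.one_mem (R.smul_mem hc hh), R.red_one, R.red_smul hc hh, hc0, zero_smul,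
    add_zero]

/-- **(S2)** the soft estimate on classes.
PROOF. `w = KV.mk f`, `IsLev R (ϖ^q) f` : `f = 1 + ϖ^q • h`.  `heckeT_mk (heckeNormPreserves M q q)` : `heckeT w = KV.mk ⟨Units.map (heckeNorm ..) f, _⟩`.  (S1) : `N f * G^q = 1 + (ε ϖ^q) • h' =: f''`.
`f''` is a unit and a Kummer unit (product of Kummer units: `pow_mem_kummerUnits`), `KV.mk f'' = KV.mk (N f)` (`KV.mk_eq_mk_iff`), `IsLev R (ε ϖ^q) f''` : `R.red f'' = 1` because `ε ϖ^q` is small (`R.red_add`, `R.red_smul`). -/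
theorem heckeT_soft {ϖ : Kbar} (hϖ0 : ϖ ≠ 0) (hϖ : ϖ ∈ A) (hϖ' : ϖ⁻¹ ∉ A)
    (hρ : (q : Kbar) / ϖ ^ (q - 1) ∈ A) (hρ' : ((q : Kbar) / ϖ ^ (q - 1))⁻¹ ∉ A)
    {w : KV Kbar (FN M) q} (hw : w ∈ Klev (Conc.RMq A M q hq hqM hA) q (ϖ ^ q)) :
    ∃ ε : Kbar, ε ≠ 0 ∧ ε ∈ A ∧ ε⁻¹ ∉ A ∧
      heckeT Kbar M q q w ∈ Klev (Conc.RMq A M q hq hqM hA) q (ε * ϖ ^ q) := by
  obtain ⟨f, rfl, hf1, h, hh, hfe⟩ := hw
  obtain ⟨G, ε, h', hG0, hε0, hε, hε', hh', hN⟩ :=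
    heckeNorm_soft A M q hq hqM hA hϖ0 hϖ hϖ' hρ hρ' hh
  refine ⟨ε, hε0, hε, hε', ?_⟩
  rw [heckeT_mk (heckeNormPreserves M q q)]
  refine ⟨⟨Units.map (heckeNorm Kbar M q) (f : (FN M)ˣ), heckeNormPreserves M q q f f.2⟩ *
    ⟨(Units.mk0 G hG0) ^ q, pow_mem_kummerUnits q (Units.mk0 G hG0)⟩, ?_, ?_⟩
  · rw [KV.mk_eq_mk_iff]
    exact ⟨Units.mk0 G hG0, mul_comm _ _⟩
  · have e : (((⟨Units.map (heckeNorm Kbar M q) (f : (FN M)ˣ), heckeNormPreserves M q q f f.2⟩ *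
        ⟨(Units.mk0 G hG0) ^ q, pow_mem_kummerUnits q (Units.mk0 G hG0)⟩ :
          kummerUnits Kbar (FN M) q) : (FN M)ˣ) : FN M) = 1 + (ε * ϖ ^ q) • h' := by
      rw [← hN, ← hfe]
      rfl
    rw [e]
    refine ⟨?_, h', hh', rfl⟩
    have hRA : (Conc.RMq A M q hq hqM hA).A = A := Conc.gaussRedData'_A A M _ _ _
    have hcA : ε * ϖ ^ q ∈ (Conc.RMq A M q hq hqM hA).A := by
      rw [hRA]
      exact A.mul_mem _ _ hε (A.pow_mem hϖ q)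
    have hc0 : (Conc.RMq A M q hq hqM hA).redA (ε * ϖ ^ q) = 0 := by
      by_contra hne
      obtain ⟨-, -, h3⟩ := (Conc.RMq A M q hq hqM hA).redA_ne_zero_iff.1 hne
      rw [hRA] at h3
      apply hε'
      have h4 : ε⁻¹ = (ε * ϖ ^ q)⁻¹ * ϖ ^ q := by
        have : ϖ ^ q ≠ 0 := pow_ne_zero _ hϖ0
        field_simp
      rw [h4]
      exact A.mul_mem _ _ h3 (A.pow_mem hϖ q)
    exact Soft_red_one_add_smul _ hcA hc0 hh'

end Fermat.Agent.S33.Depth
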