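import Fermat.Agent.S33.Depth.Defs

/-!
# S33 / Depth / Structure  (leaf D1) : the structure theorem of `DR/Abs/Structure.lean` for `m = p = char k`

`DR.Abs.exists_delta` is stated for `(m : k) ≠ 0`, but its proof (and the proofs of `exists_line_of_pow_eq`, `Structure_step2`) only use
`0 < m`.  RECIPE: copy `exists_line_of_pow_eq`, `Structure_step2`, `exists_delta` from `DR/Abs/Structure.lean` with FRESH names
(`line_of_pow_eq'`, `step2'`, `exists_delta'`), replacing the hypothesis `hm : (m : k) ≠ 0` by `hm0 : 0 < m` (delete the line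
`have hm0 ...`); `Structure_step1`, `Structure_exists_unit` can be used as they are.  Then for `m = p` : `δ e ^ p = 1` gives `δ e = 1`
(`(δ e - 1) ^ p = δ e ^ p - 1 = 0` : `sub_pow_char`, or `frobenius_inj`), i.e. `δ = 1` (`funext`).
-/

set_option autoImplicit false

namespace Fermat.Agent.S33.Depth

open AlgebraicCurve Fermat.Agent.Lib.RR Fermat.Agent.GAL.RED Fermat.Agent.DR.Abs

variable {K F k : Type*} [Field K] [Field F] [Algebra K F] [Field k] {ι : Type*}
  {Fb : ι → Type*} [∀ i, Field (Fb i)] [∀ i, Algebra k (Fb i)] {E : Type*}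
  [IsFF K F] [IsAlgClosed K] [∀ i, IsFF k (Fb i)] [IsAlgClosed k] [Fintype ι] [Fintype E]

/-- `DR.Abs.exists_line_of_pow_eq` for `0 < m`. -/
theorem line_of_pow_eq' {m : ℕ} (hm0 : 0 < m) (V : Submodule k (k × k))
    (hV : ∀ v ∈ V, v.1 ^ m = v.2 ^ m) : ∃ δ : k, δ ^ m = 1 ∧ ∀ v ∈ V, v.1 = δ * v.2 := by
  by_cases h : ∀ w ∈ V, w.2 = 0
  · refine ⟨1, one_pow _, fun w hw => ?_⟩
    have h1 := hV w hw
    rw [h w hw, zero_pow hm0.ne'] at h1
    rw [h w hw, mul_zero]
    exact (pow_eq_zero_iff hm0.ne').1 h1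
  · push Not at h
    obtain ⟨w₀, hw₀, hy₀⟩ := h
    refine ⟨w₀.1 / w₀.2, by rw [div_pow, hV w₀ hw₀, div_self (pow_ne_zero _ hy₀)],
      fun w hw => ?_⟩
    have h1 := hV _ (V.sub_mem hw (V.smul_mem (w.2 / w₀.2) hw₀))
    simp only [Prod.fst_sub, Prod.snd_sub, Prod.smul_fst, Prod.smul_snd, smul_eq_mul,
      div_mul_cancel₀ _ hy₀, sub_self, zero_pow hm0.ne'] at h1
    have h2 := sub_eq_zero.1 ((pow_eq_zero_iff hm0.ne').1 h1)
    rw [h2]
    ring

/-- step (2) of the structure theorem. -/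
theorem step2' {T : MultiRed K F k Fb} {x : F} {N : NodeData k Fb E} {a₀ : ℕ}
    (h : IsPreNodal T x N a₀) {m : ℕ} (hm0 : 0 < m) {f : F} {D : Divisor K F}
    (hD : divOf (K := K) f = m • D) (hf : T.red f = 1) {a b : ℕ} (hab : a₀ ≤ a + b) :
    ∃ δ : E → k, (∀ e, δ e ^ m = 1) ∧
      T.redSub (riemannRochSpace (bipole K x a b + D)) ≤ gluedSub N (T.red x) h.adapted δ a b := by
  have key : ∀ e : E, ∃ d : k, d ^ m = 1 ∧
      ∀ z ∈ T.redSub (riemannRochSpace (bipole K x a b + D)),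
        ev (N.p₁ e) (z (N.i₁ e)) = d * ev (N.p₂ e) (z (N.i₂ e)) := by
    intro e
    let φ : T.redSub (riemannRochSpace (bipole K x a b + D)) →ₗ[k] k × k :=
      { toFun := fun z => (ev (N.p₁ e) (z.1 (N.i₁ e)), ev (N.p₂ e) (z.1 (N.i₂ e)))
        map_add' := by
          intro z w
          have hz := (Structure_step1 h hm0 hD hf hab z.2).1
          have hw := (Structure_step1 h hm0 hD hf hab w.2).1
          ext
          · exact ev_add _ (hz.ord₁ h.adapted e) (hw.ord₁ h.adapted e)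
          · exact ev_add _ (hz.ord₂ h.adapted e) (hw.ord₂ h.adapted e)
        map_smul' := by
          intro c z
          have hz := (Structure_step1 h hm0 hD hf hab z.2).1
          ext
          · exact ev_smul _ c (hz.ord₁ h.adapted e)
          · exact ev_smul _ c (hz.ord₂ h.adapted e) }
    obtain ⟨d, hd, hd'⟩ := line_of_pow_eq' hm0 (LinearMap.range φ) (by
      rintro _ ⟨z, rfl⟩
      exact (Structure_step1 h hm0 hD hf hab z.2).2 e)
    exact ⟨d, hd, fun z hz => hd' _ ⟨⟨z, hz⟩, rfl⟩⟩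
  choose δ hδ hδ' using key
  exact ⟨δ, hδ, fun z hz => ⟨(Structure_step1 h hm0 hD hf hab hz).1, fun e => hδ' e z hz⟩⟩

/-- `DR.Abs.exists_delta` for `0 < m`. -/
theorem exists_delta' {T : MultiRed K F k Fb} {x : F} {N : NodeData k Fb E} {a₀ : ℕ}
    (h : IsPreNodal T x N a₀) {m : ℕ} (hm0 : 0 < m) {f : F} {D : Divisor K F}
    (hD : divOf (K := K) f = m • D) (hf : T.red f = 1) :
    ∃ (δ : E → k) (a₁ : ℕ), (∀ e, δ e ^ m = 1) ∧ ∀ a b : ℕ, a₁ ≤ a + b →
      T.redSub (riemannRochSpace (bipole K x a b + D)) = gluedSub N (T.red x) h.adapted δ a b := by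
  obtain ⟨i₀⟩ := h.cart.nonempty
  have hxnc : x ∉ Set.range (algebraMap K F) := by
    rintro ⟨c, rfl⟩
    exact h.nonconst i₀ ⟨T.redA c, (T.red_algebraMap c i₀).symm⟩
  have hx0 : x ≠ 0 := by
    rintro rfl
    exact hxnc ⟨0, map_zero _⟩
  have hdegD : Divisor.degree D = 0 := by
    have h1 : Divisor.degree (m • D) = 0 := by rw [← hD, degree_divOf]
    rw [map_nsmul, nsmul_eq_mul] at h1
    exact (mul_eq_zero.1 h1).resolve_left (by exact_mod_cast hm0.ne')
  have hpos := degree_poleDiv_pos (k := K) hxnc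
  obtain ⟨a₂, h₂⟩ := finrank_gluedSub N (T.red x) h.adapted
  obtain ⟨a₃, h₃⟩ := Structure_exists_unit N (T.red x) h.adapted
  set a₁ : ℕ := max a₀ (max a₂ (max a₃ (2 * genusFF K F))) with ha₁
  have key : ∀ a b : ℕ, a₁ ≤ a + b → ∃ δ : E → k, (∀ e, δ e ^ m = 1) ∧
      T.redSub (riemannRochSpace (bipole K x a b + D)) =
        gluedSub N (T.red x) h.adapted δ a b := by
    intro a b hab
    have hab0 : a₀ ≤ a + b := le_trans (le_max_left _ _) hab
    have hab2 : a₂ ≤ a + b := le_trans (le_trans (le_max_left _ _) (le_max_right _ _)) hab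
    have habg : 2 * genusFF K F ≤ a + b :=
      le_trans (le_trans (le_trans (le_max_right _ _) (le_max_right _ _)) (le_max_right _ _)) hab
    obtain ⟨δ, hδ, hle⟩ := step2' h hm0 hD hf hab0
    refine ⟨δ, hδ, ?_⟩
    have hlarge : 2 * (genusFF K F : ℤ) - 2 <
        ((a : ℤ) + b) * Divisor.degree (poleDiv (K := K) x) := by
      have h1 : (2 * (genusFF K F : ℤ)) ≤ (a : ℤ) + b := by exact_mod_cast habg
      have h2 : (a : ℤ) + b ≤ ((a : ℤ) + b) * Divisor.degree (poleDiv (K := K) x) := by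
        have h3 : (0 : ℤ) ≤ (a : ℤ) + b := by positivity
        nlinarith
      omega
    have hc1 : Module.finrank k (T.redSub (riemannRochSpace (bipole K x a b + D))) =
        ell (bipole K x a b + D) := h.cart _ inferInstance
    have hc0 : Module.finrank k (T.redSub (riemannRochSpace (bipole K x a b))) =
        ell (bipole K x a b) := h.cart _ inferInstance
    have e1 := ell_bipole_add hx0 D hdegD a b hlarge
    have e0 := ell_bipole_add hx0 (0 : Divisor K F) (map_zero _) a b hlarge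
    rw [add_zero] at e0
    rw [h.redSub_eq hab0] at hc0
    have g1 := (h₂ 1 a b hab2).2
    have gδ := (h₂ δ a b hab2).2
    have := (h₂ δ a b hab2).1
    refine Submodule.eq_of_le_of_finrank_eq hle ?_
    have : (Module.finrank k (T.redSub (riemannRochSpace (bipole K x a b + D))) : ℤ) =
        Module.finrank k (gluedSub N (T.red x) h.adapted δ a b) := by
      rw [hc1, e1, ← e0, ← hc0, g1, gδ]
    exact_mod_cast this
  have mono : ∀ (a b a' b' : ℕ) (δ δ' : E → k), a₁ ≤ a + b → a ≤ a' → b ≤ b' →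
      T.redSub (riemannRochSpace (bipole K x a b + D)) =
        gluedSub N (T.red x) h.adapted δ a b →
      T.redSub (riemannRochSpace (bipole K x a' b' + D)) =
        gluedSub N (T.red x) h.adapted δ' a' b' → δ = δ' := by
    intro a b a' b' δ δ' hab ha hb e e'
    have hab3 : a₃ ≤ a + b :=
      le_trans (le_trans (le_trans (le_max_left _ _) (le_max_right _ _)) (le_max_right _ _)) hab
    obtain ⟨z, hz, hz1⟩ := h₃ a b hab3 δ
    have hz' : z ∈ gluedSub N (T.red x) h.adapted δ' a' b' := by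
      rw [← e']
      refine T.redSub_mono (DR.Abs.L_mono ?_) (e ▸ hz)
      exact add_le_add_left (bipole_mono x ha hb) D
    funext t
    have h1 := hz.2 t
    have h2 := hz'.2 t
    rw [hz1 t, mul_one] at h1 h2
    rw [← h1, h2]
  obtain ⟨δ₀, hδ₀, e₀⟩ := key a₁ 0 (by omega)
  refine ⟨δ₀, a₁, hδ₀, fun a b hab => ?_⟩
  obtain ⟨δ, -, e⟩ := key a b hab
  obtain ⟨δ', -, e'⟩ := key (max a a₁) (max b 0) (by
    have := le_max_left a a₁
    have := le_max_left b 0
    omega)
  have h1 := mono a b _ _ δ δ' hab (le_max_left _ _) (le_max_left _ _) e e'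
  have h2 := mono a₁ 0 _ _ δ₀ δ' (by omega) (le_max_right _ _) (le_max_right _ _) e₀ e'
  rw [e, h1, ← h2]

/-- **(D1)** In residue characteristic `p`, the reductions of the twisted spaces `L(a X_∞ + b X_0 + D)`, `p D = div f`, `red f = 1`,
are the untwisted glued spaces. -/
theorem exists_glued_one {T : MultiRed K F k Fb} {x : F} {N : NodeData k Fb E} {a₀ : ℕ}
    (h : IsPreNodal T x N a₀) {p : ℕ} (hp : p.Prime) [CharP k p] {f : F} {D : Divisor K F}
    (hD : divOf (K := K) f = p • D) (hf : T.red f = 1) :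
    ∃ a₁ : ℕ, ∀ a b : ℕ, a₁ ≤ a + b →
      T.redSub (riemannRochSpace (bipole K x a b + D)) = gluedSub N (T.red x) h.adapted 1 a b := by
  have : Fact p.Prime := ⟨hp⟩
  obtain ⟨δ, a₁, hδ, hab⟩ := exists_delta' h hp.pos hD hf
  have h1 : δ = 1 := by
    funext e
    have h2 : (δ e - 1) ^ p = 0 := by rw [sub_pow_char, hδ e, one_pow, sub_self]
    exact sub_eq_zero.1 ((pow_eq_zero_iff hp.ne_zero).1 h2)
  subst h1
  exact ⟨a₁, hab⟩

end Fermat.Agent.S33.Depth
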